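import Mathlib

set_option autoImplicit false

namespace Fermat.Agent.S22

theorem comp_mem_of_mem_adjoin {V : Type*} [AddCommGroup V] [Module ℂ V]
    (G : Set (Module.End ℂ V)) (Λ : Submodule ℤ (Module.Dual ℂ V))
    (hstab : ∀ g ∈ G, ∀ l ∈ Λ, l ∘ₗ g ∈ Λ) {t : Module.End ℂ V} (ht : t ∈ Algebra.adjoin ℤ G) :
    ∀ l ∈ Λ, l ∘ₗ t ∈ Λ := by
  induction ht using Algebra.adjoin_induction with
  | mem x hx => exact hstab x hx
  | algebraMap r =>
    intro l hl
    have : l ∘ₗ (algebraMap ℤ (Module.End ℂ V) r) = r • l := by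
      ext v
      simp
    rw [this]
    exact Λ.smul_mem r hl
  | add x y _ _ hx hy =>
    intro l hl
    rw [LinearMap.comp_add]
    exact Λ.add_mem (hx l hl) (hy l hl)
  | mul x y _ _ hx hy =>
    intro l hl
    have : l ∘ₗ (x * y) = (l ∘ₗ x) ∘ₗ y := rfl
    rw [this]
    exact hy _ (hx l hl)

theorem finite_adjoin_of_lattice {V : Type*} [AddCommGroup V] [Module ℂ V]
    (G : Set (Module.End ℂ V)) (Λ : Submodule ℤ (Module.Dual ℂ V)) (hfg : Λ.FG)
    (hstab : ∀ g ∈ G, ∀ l ∈ Λ, l ∘ₗ g ∈ Λ)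
    (hsep : ∀ f : V, (∀ l ∈ Λ, l f = 0) → f = 0) :
    Module.Finite ℤ (Algebra.adjoin ℤ G) := by
  have : Module.Finite ℤ Λ := Module.Finite.iff_fg.mpr hfg
  have : IsAddTorsionFree (Module.Dual ℂ V) := .of_isTorsionFree ℂ _
  have : Module.Free ℤ Λ := Module.free_of_finite_type_torsion_free'
  let Θ : (Algebra.adjoin ℤ G) →ₗ[ℤ] (Λ →ₗ[ℤ] Λ) :=
    { toFun := fun t =>
        { toFun := fun l => ⟨l.1 ∘ₗ t.1, comp_mem_of_mem_adjoin G Λ hstab t.2 l.1 l.2⟩
          map_add' := fun a b => Subtype.ext (by simp [LinearMap.add_comp])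
          map_smul' := fun r a => Subtype.ext (by simp [LinearMap.smul_comp]) }
      map_add' := fun a b => LinearMap.ext fun l => Subtype.ext (by simp [LinearMap.comp_add])
      map_smul' := fun r a => LinearMap.ext fun l => Subtype.ext (by
        ext v
        simp) }
  refine Module.Finite.of_injective Θ ?_
  rw [injective_iff_map_eq_zero]
  intro t ht
  apply Subtype.ext
  refine LinearMap.ext fun f => hsep _ fun l hl => ?_
  have := congrArg Subtype.val (LinearMap.congr_fun ht ⟨l, hl⟩)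
  exact LinearMap.congr_fun this f

end Fermat.Agent.S22
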