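import Fermat.Statements.S22
import Fermat.Prelude.Thm_ModularForm_sturm_bound_Gamma0
import Fermat.Prelude.Thm_CongruenceSubgroup_one_mem_strictPeriods_Gamma0

set_option autoImplicit false

open UpperHalfPlane
open scoped MatrixGroups ModularForm

namespace Fermat.Agent.S22

theorem neg_one_mem_Gamma0 (N : ℕ) :
    (-1 : GL (Fin 2) ℝ) ∈ (CongruenceSubgroup.Gamma0 N : Subgroup (GL (Fin 2) ℝ)) := by
  refine ⟨-1, ?_, ?_⟩
  · simp [CongruenceSubgroup.Gamma0_mem]
  · ext i j
    simp

theorem cuspForm_eq_zero_of_odd (N : ℕ) {k : ℤ} (hk : Odd k)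
    (f : CuspForm (CongruenceSubgroup.Gamma0 N) k) : f = 0 := by
  have h := ModularForm.eq_zero_of_neg_one_mem (neg_one_mem_Gamma0 N) hk
    (CuspForm.toModularFormₗ f)
  exact CuspForm.toModularFormₗ_injective (by rw [h, map_zero])

theorem cuspForm_eq_zero_of_nonpos (N : ℕ) [NeZero N] {k : ℤ} (hk : k ≤ 0)
    (f : CuspForm (CongruenceSubgroup.Gamma0 N) k) : f = 0 := by
  have h : CuspForm.toModularFormₗ f = 0 := by
    apply ModularForm.sturm_bound_Gamma0 N
    intro n hn
    have h0 : (k * ((CongruenceSubgroup.Gamma0 N).index : ℤ)).toNat = 0 := by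
      rw [Int.toNat_eq_zero]
      exact mul_nonpos_of_nonpos_of_nonneg hk (Int.natCast_nonneg _)
    have hn0 : n = 0 := by
      rw [h0] at hn
      simpa using hn
    subst hn0
    exact CuspFormClass.qExpansion_coeff_zero f one_pos
      (CongruenceSubgroup.one_mem_strictPeriods_Gamma0 N)
  exact CuspForm.toModularFormₗ_injective (by rw [h, map_zero])

theorem cuspForm_eq_zero_of_weight_le_one (N : ℕ) [NeZero N] {k : ℤ} (hk : k ≤ 1)
    (f : CuspForm (CongruenceSubgroup.Gamma0 N) k) : f = 0 := by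
  rcases hk.lt_or_eq with h | h
  · exact cuspForm_eq_zero_of_nonpos N (by omega) f
  · exact cuspForm_eq_zero_of_odd N (by rw [h]; exact odd_one) f

theorem result_of_forall_eq_zero (N : ℕ) [NeZero N] {k : ℤ} (S : Set ℕ)
    (h : ∀ f : CuspForm (CongruenceSubgroup.Gamma0 N) k, f = 0) :
    Module.Finite ℤ (CuspForm.heckeAlgebra N k S) := by
  have : Subsingleton (CuspForm (CongruenceSubgroup.Gamma0 N) k) :=
    ⟨fun a b => by rw [h a, h b]⟩
  have : Subsingleton (CuspForm.heckeAlgebra N k S) :=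
    ⟨fun a b => Subtype.ext (LinearMap.ext fun v => Subsingleton.elim _ _)⟩
  infer_instance

theorem result_of_weight_le_one (N : ℕ) [NeZero N] {k : ℤ} (hk : k ≤ 1) (S : Set ℕ) :
    Module.Finite ℤ (CuspForm.heckeAlgebra N k S) :=
  result_of_forall_eq_zero N S (cuspForm_eq_zero_of_weight_le_one N hk)

theorem result_of_odd (N : ℕ) [NeZero N] {k : ℤ} (hk : Odd k) (S : Set ℕ) :
    Module.Finite ℤ (CuspForm.heckeAlgebra N k S) :=
  result_of_forall_eq_zero N S (cuspForm_eq_zero_of_odd N hk)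

end Fermat.Agent.S22
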