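import Fermat.Statements.S22

set_option autoImplicit false

open UpperHalfPlane Function Polynomial
open scoped Manifold MatrixGroups ModularForm Derivative Real Topology

namespace Fermat.Agent.S22

noncomputable section

theorem mdiff_iter_D (n : ℕ) {F : ℍ → ℂ} (hF : MDiff F) : MDiff (D^[n] F) := by
  induction n generalizing F with
  | zero => simpa using hF
  | succ n ih =>
    rw [Function.iterate_succ_apply]
    exact ih (Derivative.normalizedDerivOfComplex_mdifferentiable hF)

theorem iter_D_add (n : ℕ) {F G : ℍ → ℂ} (hF : MDiff F) (hG : MDiff G) :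
    D^[n] (F + G) = D^[n] F + D^[n] G := by
  induction n generalizing F G with
  | zero => rfl
  | succ n ih =>
    rw [Function.iterate_succ_apply, Function.iterate_succ_apply, Function.iterate_succ_apply,
      Derivative.normalizedDerivOfComplex_add F G hF hG,
      ih (Derivative.normalizedDerivOfComplex_mdifferentiable hF)
        (Derivative.normalizedDerivOfComplex_mdifferentiable hG)]

theorem iter_D_sub (n : ℕ) {F G : ℍ → ℂ} (hF : MDiff F) (hG : MDiff G) :
    D^[n] (F - G) = D^[n] F - D^[n] G := by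
  induction n generalizing F G with
  | zero => rfl
  | succ n ih =>
    rw [Function.iterate_succ_apply, Function.iterate_succ_apply, Function.iterate_succ_apply,
      Derivative.normalizedDerivOfComplex_sub F G hF hG,
      ih (Derivative.normalizedDerivOfComplex_mdifferentiable hF)
        (Derivative.normalizedDerivOfComplex_mdifferentiable hG)]

theorem iter_D_smul (n : ℕ) (c : ℂ) {F : ℍ → ℂ} (hF : MDiff F) :
    D^[n] (c • F) = c • D^[n] F := by
  induction n generalizing F with
  | zero => rfl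
  | succ n ih =>
    rw [Function.iterate_succ_apply, Function.iterate_succ_apply,
      Derivative.normalizedDerivOfComplex_smul c F hF,
      ih (Derivative.normalizedDerivOfComplex_mdifferentiable hF)]

theorem mdiff_smul (c : ℂ) {F : ℍ → ℂ} (hF : MDiff F) : MDiff (c • F) :=
  hF.const_smul c


theorem D_eq_of_forall_eq {F : ℍ → ℂ} {F' : ℂ → ℂ} (h : ∀ z : ℍ, F z = F' z) (z : ℍ) :
    D F z = (2 * π * Complex.I)⁻¹ * deriv F' z := by
  have : (F ∘ ofComplex) =ᶠ[𝓝 (z : ℂ)] F' := by
    filter_upwards [isOpen_upperHalfPlaneSet.mem_nhds z.im_pos] with w hw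
    simp [ofComplex_apply_of_im_pos hw, h]
  simp only [Derivative.normalizedDerivOfComplex, this.deriv_eq]

/-- the automorphy factor as a function on `ℍ`. -/
def J (g : GL (Fin 2) ℝ) : ℍ → ℂ := fun z => denom g z

theorem mdiff_J (g : GL (Fin 2) ℝ) : MDiff (J g) := mdifferentiable_denom g

theorem D_J (g : GL (Fin 2) ℝ) : D (J g) = fun _ => (2 * π * Complex.I)⁻¹ * (g 1 0 : ℂ) := by
  ext z
  rw [D_eq_of_forall_eq (F := J g) (F' := fun w => denom g w) (fun z => rfl)]
  have := (hasDerivAt_denom_zpow g 1 z).deriv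
  simp only [zpow_one] at this
  rw [this]
  simp

theorem iter_D_J_mul (g : GL (Fin 2) ℝ) (n : ℕ) {G : ℍ → ℂ} (hG : MDiff G) :
    D^[n + 1] (J g * G) = J g * D^[n + 1] G +
      (((n : ℂ) + 1) * ((2 * π * Complex.I)⁻¹ * (g 1 0 : ℂ))) • D^[n] G := by
  induction n generalizing G with
  | zero =>
    simp only [Function.iterate_succ_apply, Function.iterate_zero, id_eq]
    rw [Derivative.normalizedDerivOfComplex_mul _ _ (mdiff_J g) hG, D_J]
    ext z
    simp [Pi.add_apply, Pi.mul_apply, Pi.smul_apply]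
    ring
  | succ n ih =>
    rw [Function.iterate_succ_apply, Derivative.normalizedDerivOfComplex_mul _ _ (mdiff_J g) hG, D_J]
    have h1 : (fun _ : ℍ => (2 * π * Complex.I)⁻¹ * (g 1 0 : ℂ)) * G =
        ((2 * π * Complex.I)⁻¹ * (g 1 0 : ℂ)) • G := by
      ext z; simp
    have hDG := Derivative.normalizedDerivOfComplex_mdifferentiable hG
    rw [h1, iter_D_add _ (mdiff_smul _ hG) ((mdiff_J g).mul hDG), iter_D_smul _ _ hG, ih hDG]
    simp only [← Function.iterate_succ_apply]
    ext z
    simp only [Pi.add_apply, Pi.mul_apply, Pi.smul_apply, smul_eq_mul]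
    push_cast
    ring

theorem J_ne_zero (g : GL (Fin 2) ℝ) (z : ℍ) : J g z ≠ 0 := denom_ne_zero g z

theorem J_mul_slash (k : ℤ) (F : ℍ → ℂ) {g : GL (Fin 2) ℝ} (hg : 0 < g.val.det) :
    J g * (F ∣[k] g) = (g.val.det : ℂ) • (F ∣[k - 1] g) := by
  have hdet : g.det.val = g.val.det := Matrix.GeneralLinearGroup.val_det_apply g
  have hdetℂ : (g.val.det : ℂ) ≠ 0 := Complex.ofReal_ne_zero.mpr hg.ne'
  ext z
  have hz := denom_ne_zero g z
  simp only [Pi.mul_apply, Pi.smul_apply, smul_eq_mul, ModularForm.slash_apply, J, hdet,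
    abs_of_pos hg]
  rw [show k - 1 - 1 = (k - 1) - 1 by ring, zpow_sub_one₀ hdetℂ (k - 1),
    show -(k - 1) = -k + 1 by ring, zpow_add_one₀ hz]
  field_simp

theorem bol (n : ℕ) {F : ℍ → ℂ} (hF : MDiff F) {g : GL (Fin 2) ℝ} (hg : 0 < g.val.det) :
    D^[n + 1] (F ∣[-(n : ℤ)] g) =
      ((g.val.det : ℂ)⁻¹) ^ (n + 1) • ((D^[n + 1] F) ∣[(n : ℤ) + 2] g) := by
  have hdetℂ : (g.val.det : ℂ) ≠ 0 := Complex.ofReal_ne_zero.mpr hg.ne'
  induction n with
  | zero =>
    simp only [Function.iterate_succ_apply, Function.iterate_zero, id_eq]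
    have := Derivative.normalizedDerivOfComplex_slash (k := 0) hF hg
    simp only [Nat.cast_zero, neg_zero, zero_add, pow_one]
    rw [this]
    ext z
    simp
  | succ n ih =>
    set G := F ∣[-(n : ℤ)] g with hG
    have hGm : MDiff G := hF.slash _ _
    set H := D^[n + 1] F with hH
    have hHm : MDiff H := mdiff_iter_D _ hF
    have h1 : F ∣[-((n + 1 : ℕ) : ℤ)] g = (g.val.det : ℂ)⁻¹ • (J g * G) := by
      rw [hG, J_mul_slash _ _ hg, smul_smul, inv_mul_cancel₀ hdetℂ, one_smul]
      congr 1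
      push_cast
      ring
    rw [h1, iter_D_smul _ _ ((mdiff_J g).mul hGm), iter_D_J_mul g (n + 1) hGm, ih,
      Function.iterate_succ_apply' (f := D) (n := n + 1), ih,
      Derivative.normalizedDerivOfComplex_smul _ _ (hHm.slash _ _),
      Derivative.normalizedDerivOfComplex_slash hHm hg,
      Function.iterate_succ_apply' (f := D) (n := n + 1), ← hH]
    have h2 := J_mul_slash ((n : ℤ) + 2 + 2) (D H) hg
    ext z
    have h3 := congrFun h2 z
    have hz := J_ne_zero g z
    simp only [Pi.mul_apply, Pi.smul_apply, smul_eq_mul, Pi.add_apply] at h3 ⊢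
    rw [show ((n + 1 : ℕ) : ℤ) + 2 = (n : ℤ) + 2 + 2 - 1 by push_cast; ring]
    have h4 : denom g z = J g z := rfl
    rw [h4]
    have h5 : (D H ∣[(n : ℤ) + 2 + 2 - 1] g) z =
        (g.val.det : ℂ)⁻¹ * (J g z * (D H ∣[(n : ℤ) + 2 + 2] g) z) := by
      rw [h3]; field_simp
    rw [h5]
    have hde : (g.val.det : ℂ) * (g.val.det : ℂ)⁻¹ = 1 := mul_inv_cancel₀ hdetℂ
    generalize (g.val.det : ℂ)⁻¹ = e at *
    push_cast
    field_simp
    ring

theorem const_of_D_eq_zero {H : ℍ → ℂ} (hH : MDiff H) (h0 : D H = 0) : ∃ c : ℂ, ∀ τ : ℍ, H τ = c := by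
  have hd : DifferentiableOn ℂ (H ∘ ofComplex) upperHalfPlaneSet :=
    UpperHalfPlane.mdifferentiable_iff.mp hH
  have h2pi : (2 * π * Complex.I : ℂ)⁻¹ ≠ 0 := inv_ne_zero Complex.two_pi_I_ne_zero
  have hz : upperHalfPlaneSet.EqOn (deriv (H ∘ ofComplex)) 0 := by
    intro z hz
    have := congrFun h0 ⟨z, hz⟩
    simp only [Derivative.normalizedDerivOfComplex, Pi.zero_apply, mul_eq_zero] at this
    rcases this with h | h
    · exact absurd h h2pi
    · simpa using h
  obtain ⟨c, hc⟩ := isOpen_upperHalfPlaneSet.exists_is_const_of_deriv_eq_zero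
    (convex_halfSpace_im_gt 0).isPreconnected hd hz
  refine ⟨c, fun τ => ?_⟩
  have := hc τ τ.im_pos
  simpa using this

theorem mdiff_of_differentiable {F' : ℂ → ℂ} (h : Differentiable ℂ F') :
    MDiff (fun τ : ℍ => F' τ) :=
  h.mdifferentiable.comp mdifferentiable_coe

theorem mdiff_eval (Q : ℂ[X]) : MDiff (fun τ : ℍ => Q.eval (τ : ℂ)) :=
  mdiff_of_differentiable Q.differentiable

theorem D_eval (Q : ℂ[X]) :
    D (fun τ : ℍ => Q.eval (τ : ℂ)) =
      fun τ : ℍ => (2 * π * Complex.I)⁻¹ * (derivative Q).eval (τ : ℂ) := by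
  ext z
  rw [D_eq_of_forall_eq (F := fun τ : ℍ => Q.eval (τ : ℂ)) (F' := fun w => Q.eval w) (fun z => rfl),
    Polynomial.deriv]

theorem exists_antiderivative (n : ℕ) (Q : ℂ[X]) (hQ : Q.natDegree ≤ n) :
    ∃ R : ℂ[X], R.natDegree ≤ n + 1 ∧ derivative R = Q := by
  refine ⟨∑ j ∈ Finset.range (n + 1), C (Q.coeff j / ((j : ℂ) + 1)) * X ^ (j + 1), ?_, ?_⟩
  · refine Polynomial.natDegree_sum_le_of_forall_le _ _ fun j hj => ?_
    refine (natDegree_C_mul_X_pow_le _ _).trans ?_
    have := Finset.mem_range.mp hj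
    omega
  · rw [derivative_sum]
    conv_rhs => rw [Q.as_sum_range_C_mul_X_pow' (Nat.lt_succ_of_le hQ)]
    refine Finset.sum_congr rfl fun j _ => ?_
    rw [derivative_C_mul_X_pow]
    congr 2
    have : ((j : ℂ) + 1) ≠ 0 := by exact_mod_cast Nat.succ_ne_zero j
    push_cast
    field_simp

theorem exists_poly_of_iter_D_eq_zero (n : ℕ) {H : ℍ → ℂ} (hH : MDiff H) (h0 : D^[n + 1] H = 0) :
    ∃ Q : Polynomial ℂ, Q.natDegree ≤ n ∧ ∀ τ : ℍ, H τ = Q.eval (τ : ℂ) := by
  induction n generalizing H with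
  | zero =>
    obtain ⟨c, hc⟩ := const_of_D_eq_zero hH (by simpa using h0)
    exact ⟨C c, by simp, fun τ => by simp [hc]⟩
  | succ n ih =>
    rw [Function.iterate_succ_apply] at h0
    obtain ⟨Q, hQ, hQe⟩ := ih (Derivative.normalizedDerivOfComplex_mdifferentiable hH) h0
    obtain ⟨R, hR, hRQ⟩ := exists_antiderivative n (C (2 * π * Complex.I) * Q)
      ((natDegree_C_mul_le _ _).trans hQ)
    have h1 : D (H - fun τ : ℍ => R.eval (τ : ℂ)) = 0 := by
      rw [Derivative.normalizedDerivOfComplex_sub _ _ hH (mdiff_eval R), D_eval, hRQ]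
      ext z
      simp only [Pi.sub_apply, hQe, eval_mul, eval_C, Pi.zero_apply]
      have := Complex.two_pi_I_ne_zero
      field_simp
      ring
    obtain ⟨c, hc⟩ := const_of_D_eq_zero (hH.sub (mdiff_eval R)) h1
    refine ⟨R + C c, ?_, fun τ => ?_⟩
    · exact (natDegree_add_le _ _).trans (by simp [hR])
    · have := hc τ
      simp only [Pi.sub_apply] at this
      simp only [eval_add, eval_C]
      linear_combination this

theorem const_of_periodic_poly {h : ℝ} (hh : 0 < h) (Q : Polynomial ℂ)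
    (hper : ∀ τ : ℍ, Q.eval ((τ : ℂ) + h) = Q.eval (τ : ℂ)) : ∃ c : ℂ, Q = Polynomial.C c := by
  refine ⟨Q.eval Complex.I, ?_⟩
  have key : ∀ m : ℕ, Q.eval (Complex.I + m * h) = Q.eval Complex.I := by
    intro m
    induction m with
    | zero => simp
    | succ m ih =>
      have him : 0 < (Complex.I + m * h : ℂ).im := by simp
      have := hper ⟨Complex.I + m * h, him⟩
      rw [← ih, ← this]
      congr 1
      push_cast
      ring
  have hroot : ∀ m : ℕ, (Q - C (Q.eval Complex.I)).IsRoot (Complex.I + m * h) := by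
    intro m
    simp [key m]
  have hinj : Function.Injective (fun m : ℕ => (Complex.I + m * h : ℂ)) := by
    intro a b hab
    have : (a : ℂ) * h = b * h := by simpa using hab
    have hh' : (h : ℂ) ≠ 0 := by exact_mod_cast hh.ne'
    exact_mod_cast mul_right_cancel₀ hh' this
  have : Q - C (Q.eval Complex.I) = 0 := by
    apply Polynomial.eq_zero_of_infinite_isRoot
    exact (Set.infinite_range_of_injective hinj).mono (by rintro _ ⟨m, rfl⟩; exact hroot m)
  exact sub_eq_zero.mp this

end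

end Fermat.Agent.S22
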