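import Fermat.Statements.S22

set_option autoImplicit false

open UpperHalfPlane hiding I
open Complex Function Filter
open scoped Manifold MatrixGroups ModularForm Topology Real Derivative

namespace Fermat.Agent.S22

noncomputable section

local notation "𝕢" => Periodic.qParam

theorem hasDerivAt_comp_ofComplex {F : ℍ → ℂ} (hF : MDiff F) (z : ℍ) :
    HasDerivAt (F ∘ ofComplex) (2 * π * I * D F z) z := by
  have h := (UpperHalfPlane.mdifferentiableAt_iff.mp (hF z)).hasDerivAt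
  have h2 : 2 * π * I * D F z = deriv (F ∘ ofComplex) z := by
    have : (2 * π * I : ℂ) ≠ 0 := Complex.two_pi_I_ne_zero
    simp only [Derivative.normalizedDerivOfComplex]
    field_simp
  rw [h2]; exact h

theorem D_eq_of_hasDerivAt {F : ℍ → ℂ} {z : ℍ} {c : ℂ} (h : HasDerivAt (F ∘ ofComplex) c z) :
    D F z = (2 * π * I)⁻¹ * c := by
  simp only [Derivative.normalizedDerivOfComplex, h.deriv]

theorem hasDerivAt_qParam (h : ℝ) (z : ℂ) :
    HasDerivAt (𝕢 h) (𝕢 h z * (2 * π * I / h)) z := by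
  unfold Periodic.qParam
  have h1 : HasDerivAt (fun z : ℂ => 2 * π * I * z / h) (2 * π * I / h) z := by
    have := ((hasDerivAt_id z).const_mul (2 * π * I)).div_const (h : ℂ)
    simpa using this
  exact h1.cexp

theorem qParam_add_period {h : ℝ} (hh : h ≠ 0) (w : ℂ) : 𝕢 h (w + h) = 𝕢 h w := by
  have hhC : (h : ℂ) ≠ 0 := by exact_mod_cast hh
  unfold Periodic.qParam
  rw [show 2 * π * I * (w + h) / h = 2 * π * I * w / h + 2 * π * I by field_simp, Complex.exp_add,
    Complex.exp_two_pi_mul_I, mul_one]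

theorem exists_prim {h : ℝ} (hh : 0 < h) {φ : ℍ → ℂ} (hol : MDiff φ)
    (hper : Periodic (φ ∘ ofComplex) h) (hz : IsZeroAtImInfty φ) :
    ∃ Φ : ℍ → ℂ, MDiff Φ ∧ Periodic (Φ ∘ ofComplex) h ∧ IsZeroAtImInfty Φ ∧ D Φ = φ := by
  set c := cuspFunction h φ with hc
  have hcd : DifferentiableOn ℂ c (Metric.ball 0 1) :=
    differentiableOn_cuspFunction_ball hh hper hol hz.isBoundedAtImInfty
  have hc0 : c 0 = 0 := by
    have := cuspFunction_apply_zero hh
      (analyticAt_cuspFunction_zero hh hper hol hz.isBoundedAtImInfty) hper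
    rw [hc, this, hz.valueAtInfty_eq_zero]
  have hψd : DifferentiableOn ℂ (dslope c 0) (Metric.ball 0 1) :=
    (Complex.differentiableOn_dslope (Metric.ball_mem_nhds 0 one_pos)).mpr hcd
  obtain ⟨Ψ, hΨ⟩ := hψd.isExactOn_ball
  have hq1 : ∀ z : ℍ, 𝕢 h z ∈ Metric.ball (0 : ℂ) 1 := fun z => by
    simpa using Periodic.norm_qParam_lt_one hh z.im_pos
  have hhC : (h : ℂ) ≠ 0 := by exact_mod_cast hh.ne'
  set G : ℂ → ℂ := fun w => h * (Ψ (𝕢 h w) - Ψ 0) with hG
  have hGd : ∀ z : ℍ, HasDerivAt G (2 * π * I * φ z) z := by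
    intro z
    have h1 := (hΨ _ (hq1 z)).comp (z : ℂ) (hasDerivAt_qParam h z)
    have h2 := (h1.sub_const (Ψ 0)).const_mul (h : ℂ)
    have hq0 : 𝕢 h z ≠ 0 := Periodic.qParam_ne_zero _
    have h3 : (h : ℂ) * (dslope c 0 (𝕢 h z) * (𝕢 h z * (2 * π * I / h))) = 2 * π * I * φ z := by
      rw [dslope_of_ne _ hq0, slope_def_field, hc0, hc, eq_cuspFunction z hh.ne' hper]
      field_simp
      ring
    rw [h3] at h2
    exact h2
  have hev : ∀ z : ℍ, ((fun z : ℍ => G z) ∘ ofComplex) =ᶠ[𝓝 (z : ℂ)] G := by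
    intro z
    filter_upwards [isOpen_upperHalfPlaneSet.mem_nhds z.im_pos] with w hw
    simp [ofComplex_apply_of_im_pos hw]
  refine ⟨fun z => G z, ?_, ?_, ?_, ?_⟩
  · intro z
    rw [UpperHalfPlane.mdifferentiableAt_iff]
    exact ((hGd z).congr_of_eventuallyEq (hev z)).differentiableAt
  · intro w
    by_cases hw : 0 < im w
    · have hw' : 0 < im (w + h) := by simpa using hw
      simp only [comp_apply, ofComplex_apply_of_im_pos hw', ofComplex_apply_of_im_pos hw, hG,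
        UpperHalfPlane.coe_mk]
      rw [qParam_add_period hh.ne']
    · have hw' : im (w + h) ≤ 0 := by simpa using not_lt.mp hw
      simp [ofComplex_apply_of_im_nonpos hw', ofComplex_apply_of_im_nonpos (not_lt.mp hw)]
  · have hcont : ContinuousAt Ψ 0 := (hΨ 0 (Metric.mem_ball_self one_pos)).continuousAt
    have h1 : Tendsto (fun z : ℍ => Ψ (𝕢 h z)) atImInfty (𝓝 (Ψ 0)) :=
      hcont.tendsto.comp (qParam_tendsto_atImInfty hh)
    have h2 : Tendsto (fun z : ℍ => (h : ℂ) * (Ψ (𝕢 h z) - Ψ 0)) atImInfty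
        (𝓝 ((h : ℂ) * (Ψ 0 - Ψ 0))) := (h1.sub_const _).const_mul _
    simpa [IsZeroAtImInfty, ZeroAtFilter] using h2
  · funext z
    rw [D_eq_of_hasDerivAt ((hGd z).congr_of_eventuallyEq (hev z))]
    have : (2 * π * I : ℂ) ≠ 0 := Complex.two_pi_I_ne_zero
    field_simp

theorem exists_iter_prim {h : ℝ} (hh : 0 < h) (n : ℕ) {φ : ℍ → ℂ} (hol : MDiff φ)
    (hper : Periodic (φ ∘ ofComplex) h) (hz : IsZeroAtImInfty φ) :
    ∃ Φ : ℍ → ℂ, MDiff Φ ∧ Periodic (Φ ∘ ofComplex) h ∧ IsZeroAtImInfty Φ ∧ D^[n] Φ = φ := by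
  induction n generalizing φ with
  | zero => exact ⟨φ, hol, hper, hz, rfl⟩
  | succ n ih =>
    obtain ⟨Φ₁, h1, h2, h3, h4⟩ := exists_prim hh hol hper hz
    obtain ⟨Φ, g1, g2, g3, g4⟩ := ih h1 h2 h3
    exact ⟨Φ, g1, g2, g3, by rw [Function.iterate_succ_apply', g4, h4]⟩

end

end Fermat.Agent.S22
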