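import Fermat.Statements.S22
import Fermat.Prelude.Thm_ModularForm_sturm_bound_Gamma0
import Fermat.Prelude.Thm_Subgroup_IsArithmetic_exists_nat_mem_strictPeriods_conj
import Fermat.Agent.S22.Prim
import Fermat.Agent.S22.Bol

set_option autoImplicit false

open UpperHalfPlane Function Polynomial
open scoped Manifold MatrixGroups ModularForm Derivative Pointwise

namespace Fermat.Agent.S22

noncomputable section

theorem sep_mdiff_iter_D (n : ℕ) {A : ℍ → ℂ} (hA : MDiff A) : MDiff (D^[n] A) := by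
  induction n generalizing A with
  | zero => exact hA
  | succ n ih =>
    rw [Function.iterate_succ_apply]
    exact ih (Derivative.normalizedDerivOfComplex_mdifferentiable hA)

theorem sep_iter_D_sub (n : ℕ) {A B : ℍ → ℂ} (hA : MDiff A) (hB : MDiff B) :
    D^[n] (A - B) = D^[n] A - D^[n] B := by
  induction n generalizing A B with
  | zero => rfl
  | succ n ih =>
    rw [Function.iterate_succ_apply, Function.iterate_succ_apply, Function.iterate_succ_apply,
      Derivative.normalizedDerivOfComplex_sub A B hA hB,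
      ih (Derivative.normalizedDerivOfComplex_mdifferentiable hA)
        (Derivative.normalizedDerivOfComplex_mdifferentiable hB)]

theorem sep_iter_D_zero (n : ℕ) : D^[n] (0 : ℍ → ℂ) = 0 := by
  induction n with
  | zero => rfl
  | succ n ih =>
    rw [Function.iterate_succ_apply]
    have : D (0 : ℍ → ℂ) = 0 := Derivative.normalizedDerivOfComplex_const 0
    rw [this, ih]

theorem sep_bounded_slash (N : ℕ) [NeZero N] (w : ℕ)
    (f : CuspForm (CongruenceSubgroup.Gamma0 N) ((w : ℤ) + 2)) (F : ℍ → ℂ) (hF : MDiff F)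
    (hD : D^[w + 1] F = f)
    (hinv : ∀ γ ∈ (CongruenceSubgroup.Gamma0 N : Subgroup (GL (Fin 2) ℝ)), F ∣[-(w : ℤ)] γ = F)
    (γ : SL(2, ℤ)) :
    IsBoundedAtImInfty (F ∣[-(w : ℤ)] (Matrix.SpecialLinearGroup.mapGL ℝ γ)) := by
  set g : GL (Fin 2) ℝ := Matrix.SpecialLinearGroup.mapGL ℝ γ with hg
  obtain ⟨M, hM0, hM⟩ := Subgroup.IsArithmetic.exists_nat_mem_strictPeriods_conj
    (CongruenceSubgroup.Gamma0 N : Subgroup (GL (Fin 2) ℝ))
  have hMγ : (M : ℝ) ∈ (ConjAct.toConjAct g⁻¹ •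
      (CongruenceSubgroup.Gamma0 N : Subgroup (GL (Fin 2) ℝ))).strictPeriods := by
    have := hM γ⁻¹
    rwa [map_inv] at this
  have hMpos : (0 : ℝ) < M := by exact_mod_cast hM0
  have hdet : g.val.det = 1 := by
    rw [← Matrix.GeneralLinearGroup.val_det_apply]; simp [hg]
  -- the translated cusp form
  let fg := CuspForm.translate f g
  have hfg : (fg : ℍ → ℂ) = (f : ℍ → ℂ) ∣[(w : ℤ) + 2] g := rfl
  have hfg_per : Periodic ((fg : ℍ → ℂ) ∘ ofComplex) ((M : ℝ) : ℂ) :=
    SlashInvariantFormClass.periodic_comp_ofComplex fg hMγ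
  have hcusp : IsCusp OnePoint.infty (ConjAct.toConjAct g⁻¹ •
      (CongruenceSubgroup.Gamma0 N : Subgroup (GL (Fin 2) ℝ))) :=
    Subgroup.isCusp_of_mem_strictPeriods hMpos hMγ
  have hfg_zero : IsZeroAtImInfty (fg : ℍ → ℂ) :=
    OnePoint.isZeroAt_infty_iff.mp (CuspFormClass.zero_at_cusps fg hcusp)
  obtain ⟨H, hH1, hH2, hH3, hH4⟩ :=
    exists_iter_prim hMpos (w + 1) (CuspFormClass.holo fg) hfg_per hfg_zero
  -- the translated Eichler integral
  let Fs : SlashInvariantForm (CongruenceSubgroup.Gamma0 N : Subgroup (GL (Fin 2) ℝ)) (-(w : ℤ)) :=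
    ⟨F, hinv⟩
  let Fg := SlashInvariantForm.translate Fs g
  have hFg : (Fg : ℍ → ℂ) = F ∣[-(w : ℤ)] g := rfl
  have hFg_per : Periodic ((F ∣[-(w : ℤ)] g) ∘ ofComplex) ((M : ℝ) : ℂ) :=
    SlashInvariantFormClass.periodic_comp_ofComplex Fg hMγ
  have hFg_md : MDiff (F ∣[-(w : ℤ)] g) := hF.slash _ g
  have hbol : D^[w + 1] (F ∣[-(w : ℤ)] g) = fg := by
    rw [bol w hF (by rw [hdet]; exact one_pos), hdet, hD, hfg]
    simp
  have hK : D^[w + 1] (F ∣[-(w : ℤ)] g - H) = 0 := by
    rw [sep_iter_D_sub _ hFg_md hH1, hbol, hH4, sub_self]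
  obtain ⟨Q, -, hQ⟩ := exists_poly_of_iter_D_eq_zero w (hFg_md.sub hH1) hK
  obtain ⟨c, hc⟩ := const_of_periodic_poly hMpos Q (by
    intro τ
    have hτ : (0 : ℝ) < ((τ : ℂ) + (M : ℝ)).im := by simpa using τ.im_pos
    have e1 := hFg_per (τ : ℂ)
    have e2 := hH2 (τ : ℂ)
    simp only [comp_apply, ofComplex_apply_of_im_pos hτ, ofComplex_apply] at e1 e2
    have e3 := hQ ⟨(τ : ℂ) + (M : ℝ), hτ⟩
    have e4 := hQ τ
    simp only [Pi.sub_apply] at e3 e4
    rw [← e3, ← e4, e1, e2])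
  have hsum : F ∣[-(w : ℤ)] g = H + fun _ => c := by
    funext τ
    have := hQ τ
    simp only [Pi.sub_apply, hc, eval_C] at this
    simp only [Pi.add_apply]
    linear_combination this
  rw [hsum]
  exact hH3.isBoundedAtImInfty.add (Filter.const_boundedAtFilter _ c)

theorem separation (N : ℕ) [NeZero N] (w : ℕ)
    (f : CuspForm (CongruenceSubgroup.Gamma0 N) ((w : ℤ) + 2)) (F : ℍ → ℂ) (hF : MDiff F)
    (hper : Periodic (F ∘ ofComplex) 1) (hz : IsZeroAtImInfty F) (hD : D^[w + 1] F = f)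
    (hinv : ∀ γ ∈ (CongruenceSubgroup.Gamma0 N : Subgroup (GL (Fin 2) ℝ)), F ∣[-(w : ℤ)] γ = F) :
    f = 0 := by
  let Fm : ModularForm (CongruenceSubgroup.Gamma0 N : Subgroup (GL (Fin 2) ℝ)) (-(w : ℤ)) :=
    { toFun := F
      slash_action_eq' := hinv
      holo' := hF
      bdd_at_cusps' := by
        intro c hc
        have hc' : IsCusp c 𝒮ℒ := (Subgroup.IsArithmetic.isCusp_iff_isCusp_SL2Z _).mp hc
        rw [OnePoint.isBoundedAt_iff_forall_SL2Z hc']
        intro γ _
        exact sep_bounded_slash N w f F hF hD hinv γ }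
  have hFm : (Fm : ℍ → ℂ) = F := rfl
  have h0 : Fm = 0 := by
    refine ModularForm.sturm_bound_Gamma0 N Fm fun n hn => ?_
    have hn0 : n = 0 := by
      have h1 : (-(w : ℤ) * ((CongruenceSubgroup.Gamma0 N).index : ℤ)).toNat = 0 := by
        apply Int.toNat_eq_zero.mpr
        have : (0 : ℤ) ≤ (w : ℤ) * ((CongruenceSubgroup.Gamma0 N).index : ℤ) := by positivity
        linarith
      rw [h1] at hn
      simpa using hn
    subst hn0
    rw [hFm, qExpansion_coeff_zero one_pos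
      (analyticAt_cuspFunction_zero one_pos (by simpa using hper) hF hz.isBoundedAtImInfty)
      (by simpa using hper), hz.valueAtInfty_eq_zero]
  have hF0 : F = 0 := by
    rw [← hFm, h0]; rfl
  apply DFunLike.coe_injective
  rw [← hD, hF0, sep_iter_D_zero]
  rfl

end

end Fermat.Agent.S22
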