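import Fermat.Agent.S22.Hecke
import Fermat.Prelude.Thm_ModularForm_isBoundedAtImInfty_heckeT
import Fermat.Prelude.Thm_ModularForm_periodic_heckeT_comp_ofComplex
import Fermat.Prelude.Thm_ModularForm_periodic_heckeU_comp_ofComplex

set_option autoImplicit false

open UpperHalfPlane Function Polynomial Matrix.SpecialLinearGroup
open scoped Manifold MatrixGroups ModularForm Derivative OnePoint

namespace Fermat.Agent.S22

noncomputable section

variable {N : ℕ} (w : ℕ)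

theorem dvd_of_mem_Gamma0 (γ : CongruenceSubgroup.Gamma0 N) : (N : ℤ) ∣ (γ : SL(2, ℤ)) 1 0 :=
  (ZMod.intCast_zmod_eq_zero_iff_dvd _ _).mp (CongruenceSubgroup.Gamma0_mem.mp γ.2)

open P2MW.S_ModularForm_heckeT_slash_eq_self_of_mem_Gamma0.ModularForm.HeckeSlashInvariance in
theorem lam_comp_heckeT {ℓ : ℕ} (hℓ : ℓ.Prime) (hℓN : ¬ ℓ ∣ N)
    (γ : CongruenceSubgroup.Gamma0 N) (i : ℕ) :
    lam w γ i ∘ₗ CuspForm.heckeTLin ((w : ℤ) + 2) hℓ hℓN ∈ periodLam N w := by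
  have : Fact ℓ.Prime := ⟨hℓ⟩
  have : NeZero ℓ := ⟨hℓ.ne_zero⟩
  have hα : ∀ x : OnePoint (ZMod ℓ), (heckeRep ℓ x).val =
      !![(((x.elim (ℓ : ℤ) (fun _ => 1) : ℤ)) : ℝ), (((x.elim (0 : ℤ) (fun j => (j.val : ℤ)) : ℤ)) : ℝ);
        (((0 : ℤ)) : ℝ), (((x.elim (1 : ℤ) (fun _ => (ℓ : ℤ)) : ℤ)) : ℝ)] := by
    intro x
    induction x using OnePoint.rec with
    | infty => simp [heckeRep_infty, ModularForm.val_heckeDiagMatrix hℓ.ne_zero]
    | coe j => simp [heckeRep_coe, ModularForm.val_heckeMatrix hℓ.ne_zero]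
  refine lam_comp_mem w _ (heckeRep ℓ) ℓ hℓ.pos _ _ _ _ hα ?_ ?_ ?_ ?_ ?_ γ i
  · intro x
    rw [hα, Matrix.det_fin_two_of]
    induction x using OnePoint.rec with
    | infty => simp
    | coe j => simp
  · intro f
    rw [CuspForm.coe_heckeTLin_apply, heckeT_eq_sum_onePoint]
  · intro F hF
    rw [← heckeT_eq_sum_onePoint]
    exact ModularForm.periodic_heckeT_comp_ofComplex hF _ _
  · intro F hF
    rw [← heckeT_eq_sum_onePoint]
    exact P2MW.S_ModularForm_isBoundedAtImInfty_heckeT.M4cP1W2.isZeroAtImInfty_heckeT _ _ hF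
  · intro γ
    refine ⟨MulAction.toPerm (redMatrix ℓ (γ : SL(2, ℤ))), fun x => ?_⟩
    obtain ⟨g', hg', hmul⟩ := heckeRep_mul hℓN (γ : SL(2, ℤ)) (dvd_of_mem_Gamma0 γ) x
    exact ⟨⟨g', CongruenceSubgroup.Gamma0_mem.mpr
      ((ZMod.intCast_zmod_eq_zero_iff_dvd _ _).mpr hg')⟩, hmul⟩

open P2MW.S_ModularForm_heckeT_slash_eq_self_of_mem_Gamma0.ModularForm.HeckeSlashInvariance in
theorem lam_comp_heckeU [NeZero N] {q : ℕ} (hq : q.Prime) (hqN : q ∣ N)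
    (γ : CongruenceSubgroup.Gamma0 N) (i : ℕ) :
    lam w γ i ∘ₗ CuspForm.heckeULin ((w : ℤ) + 2) hqN ∈ periodLam N w := by
  have : NeZero q := ⟨hq.ne_zero⟩
  have hα : ∀ x : ZMod q, (ModularForm.heckeMatrix q x.val).val =
      !![(((1 : ℤ)) : ℝ), (((x.val : ℤ)) : ℝ); (((0 : ℤ)) : ℝ), (((q : ℤ)) : ℝ)] := by
    intro x
    simp [ModularForm.val_heckeMatrix hq.ne_zero]
  refine lam_comp_mem w _ (fun x : ZMod q => ModularForm.heckeMatrix q x.val) q hq.pos _ _ _ _ hα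
    ?_ ?_ ?_ ?_ ?_ γ i
  · intro x
    rw [hα, Matrix.det_fin_two_of]
    simp
  · intro f
    rw [CuspForm.coe_heckeULin_apply, heckeU_eq_sum_zmod]
  · intro F hF
    rw [← heckeU_eq_sum_zmod]
    exact ModularForm.periodic_heckeU_comp_ofComplex hF _ _
  · intro F hF
    rw [← heckeU_eq_sum_zmod]
    exact P2MW.S_ModularForm_isBoundedAtImInfty_heckeT.M4cP1W2.isZeroAtImInfty_heckeU _ _ hF
  · intro γ
    have hc : (q : ℤ) ∣ (γ : SL(2, ℤ)) 1 0 :=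
      (Int.natCast_dvd_natCast.mpr hqN).trans (dvd_of_mem_Gamma0 γ)
    refine ⟨affinePerm (γ : SL(2, ℤ)) ((ZMod.intCast_zmod_eq_zero_iff_dvd _ _).mpr hc),
      fun x => ?_⟩
    obtain ⟨g', hg', hmul⟩ := heckeMatrix_mul_of_dvd (γ : SL(2, ℤ)) hc x
    refine ⟨⟨g', ?_⟩, hmul⟩
    rw [CongruenceSubgroup.Gamma0_mem, hg']
    push_cast
    rw [CongruenceSubgroup.Gamma0_mem.mp γ.2, mul_zero]

end

end Fermat.Agent.S22
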