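import Fermat.Agent.S22.Cocycle

set_option autoImplicit false

open UpperHalfPlane Function Polynomial Matrix.SpecialLinearGroup
open scoped Manifold MatrixGroups ModularForm Derivative

namespace Fermat.Agent.S22

noncomputable section

variable {N : ℕ} (w : ℕ)

/-- The lattice of period functionals. -/
def periodLam (N : ℕ) (w : ℕ) :
    Submodule ℤ (Module.Dual ℂ (CuspForm (CongruenceSubgroup.Gamma0 N) ((w : ℤ) + 2))) :=
  Submodule.span ℤ (Set.range fun p : CongruenceSubgroup.Gamma0 N × ℕ => lam w p.1 p.2)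

theorem lam_mem (γ : CongruenceSubgroup.Gamma0 N) (i : ℕ) : lam w γ i ∈ periodLam N w :=
  Submodule.subset_span ⟨(γ, i), rfl⟩

theorem lam_eq_zero_of_lt (γ : CongruenceSubgroup.Gamma0 N) {i : ℕ} (hi : w < i) :
    lam w γ i = 0 := by
  ext f
  rw [lam_apply]
  exact coeff_eq_zero_of_natDegree_lt ((natDegree_pp w γ f).trans_lt hi)

/-- coefficients of an `act`-transformed period polynomial, as an integral combination. -/
theorem coeff_act_pp (a b c d : ℤ) (γ : CongruenceSubgroup.Gamma0 N) (i : ℕ)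
    (f : CuspForm (CongruenceSubgroup.Gamma0 N) ((w : ℤ) + 2)) :
    (act ℂ w a b c d (pp w γ f)).coeff i =
      (∑ j ∈ Finset.range (w + 1), ((actMono ℤ w a b c d j).coeff i) • lam w γ j) f := by
  rw [coeff_act, LinearMap.sum_apply]
  refine Finset.sum_congr rfl fun j _ => ?_
  rw [LinearMap.smul_apply, lam_apply, zsmul_eq_mul]

theorem lam_mul (γ γ' : CongruenceSubgroup.Gamma0 N) (i : ℕ) :
    lam w (γ * γ') i =
      (∑ j ∈ Finset.range (w + 1),
        ((actMono ℤ w ((γ' : SL(2, ℤ)) 0 0) ((γ' : SL(2, ℤ)) 0 1) ((γ' : SL(2, ℤ)) 1 0)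
          ((γ' : SL(2, ℤ)) 1 1) j).coeff i) • lam w γ j) + lam w γ' i := by
  ext f
  rw [lam_apply, pp_mul, coeff_add, actSL, coeff_act_pp, LinearMap.add_apply, lam_apply]

theorem lam_one (i : ℕ) : lam w (1 : CongruenceSubgroup.Gamma0 N) i = 0 := by
  ext f
  rw [lam_apply, pp_one]; simp

theorem group_fg_SL2Z : Group.FG SL(2, ℤ) :=
  Group.fg_iff.mpr ⟨{ModularGroup.S, ModularGroup.T}, SpecialLinearGroup.SL2Z_generators,
    by simp⟩

theorem periodLam_fg [NeZero N] : (periodLam N w).FG := by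
  have := group_fg_SL2Z
  have hfg : Group.FG (CongruenceSubgroup.Gamma0 N) := Subgroup.fg_of_index_ne_zero _
  obtain ⟨S, hS, hSfin⟩ := Group.fg_iff.mp hfg
  set L0 : Submodule ℤ (Module.Dual ℂ (CuspForm (CongruenceSubgroup.Gamma0 N) ((w : ℤ) + 2))) :=
    Submodule.span ℤ ((fun p : CongruenceSubgroup.Gamma0 N × ℕ => lam w p.1 p.2) ''
      (S ×ˢ (Finset.range (w + 1) : Set ℕ))) with hL0
  have hL0fg : L0.FG :=
    Submodule.fg_span ((hSfin.prod (Finset.finite_toSet _)).image _)
  have key : ∀ γ : CongruenceSubgroup.Gamma0 N, ∀ i, lam w γ i ∈ L0 := by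
    intro γ
    have hγ : γ ∈ Subgroup.closure S := by rw [hS]; trivial
    induction hγ using Subgroup.closure_induction with
    | mem x hx =>
      intro i
      by_cases hi : i < w + 1
      · exact Submodule.subset_span ⟨(x, i), ⟨hx, by simpa using hi⟩, rfl⟩
      · rw [lam_eq_zero_of_lt w x (by omega)]
        exact L0.zero_mem
    | one =>
      intro i
      rw [lam_one]
      exact L0.zero_mem
    | mul x y _ _ hx hy =>
      intro i
      rw [lam_mul]
      exact L0.add_mem (L0.sum_mem fun j _ => L0.smul_mem _ (hx j)) (hy i)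
    | inv x _ hx =>
      intro i
      have h1 := lam_mul w x x⁻¹ i
      rw [mul_inv_cancel, lam_one] at h1
      have h2 := eq_neg_of_add_eq_zero_right h1.symm
      rw [h2]
      exact L0.neg_mem (L0.sum_mem fun j _ => L0.smul_mem _ (hx j))
  have : periodLam N w = L0 := by
    apply le_antisymm
    · apply Submodule.span_le.mpr
      rintro _ ⟨p, rfl⟩
      exact key p.1 p.2
    · apply Submodule.span_mono
      rintro _ ⟨p, _, rfl⟩
      exact ⟨p, rfl⟩
  rw [this]
  exact hL0fg

end

end Fermat.Agent.S22
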