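import Fermat.Statements.S22

set_option autoImplicit false

open UpperHalfPlane Function Polynomial
open scoped Manifold MatrixGroups ModularForm Derivative

namespace Fermat.Agent.S22

noncomputable section

def actMono (R : Type*) [CommRing R] (w : ℕ) (a b c d : ℤ) (j : ℕ) : R[X] :=
  (C (a : R) * X + C (b : R)) ^ j * (C (c : R) * X + C (d : R)) ^ (w - j)

theorem actMono_eq_map (R : Type*) [CommRing R] (w : ℕ) (a b c d : ℤ) (j : ℕ) :
    actMono R w a b c d j = (actMono ℤ w a b c d j).map (Int.castRingHom R) := by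
  simp [actMono]

theorem natDegree_actMono_le (R : Type*) [CommRing R] (w : ℕ) (a b c d : ℤ) {j : ℕ} (hj : j ≤ w) :
    (actMono R w a b c d j).natDegree ≤ w := by
  unfold actMono
  have h1 : (C (a : R) * X + C (b : R)).natDegree ≤ 1 := natDegree_linear_le
  have h2 : (C (c : R) * X + C (d : R)).natDegree ≤ 1 := natDegree_linear_le
  calc _ ≤ ((C (a : R) * X + C (b : R)) ^ j).natDegree +
        ((C (c : R) * X + C (d : R)) ^ (w - j)).natDegree := natDegree_mul_le
    _ ≤ j * 1 + (w - j) * 1 :=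
        add_le_add (natDegree_pow_le_of_le j h1) (natDegree_pow_le_of_le (w - j) h2)
    _ = w := by omega

def act (R : Type*) [CommRing R] (w : ℕ) (a b c d : ℤ) : R[X] →ₗ[R] R[X] where
  toFun Q := ∑ j ∈ Finset.range (w + 1), C (Q.coeff j) * actMono R w a b c d j
  map_add' P Q := by
    simp only [coeff_add, C_add, add_mul, Finset.sum_add_distrib]
  map_smul' r Q := by
    simp only [coeff_smul, smul_eq_mul, C_mul, RingHom.id_apply, Finset.smul_sum]
    refine Finset.sum_congr rfl fun j _ => ?_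
    rw [smul_eq_C_mul, mul_assoc]

theorem act_apply (R : Type*) [CommRing R] (w : ℕ) (a b c d : ℤ) (Q : R[X]) :
    act R w a b c d Q = ∑ j ∈ Finset.range (w + 1), C (Q.coeff j) * actMono R w a b c d j := rfl

theorem coeff_act (R : Type*) [CommRing R] (w : ℕ) (a b c d : ℤ) (Q : R[X]) (i : ℕ) :
    (act R w a b c d Q).coeff i =
      ∑ j ∈ Finset.range (w + 1), (((actMono ℤ w a b c d j).coeff i : ℤ) : R) * Q.coeff j := by
  rw [act_apply, finsetSum_coeff]
  refine Finset.sum_congr rfl fun j _ => ?_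
  rw [coeff_C_mul, actMono_eq_map, coeff_map, mul_comm]
  rfl

theorem natDegree_act_le (R : Type*) [CommRing R] (w : ℕ) (a b c d : ℤ) (Q : R[X]) :
    (act R w a b c d Q).natDegree ≤ w := by
  rw [act_apply]
  refine natDegree_sum_le_of_forall_le _ _ fun j hj => ?_
  exact (natDegree_C_mul_le _ _).trans
    (natDegree_actMono_le R w a b c d (Nat.lt_succ_iff.mp (Finset.mem_range.mp hj)))

theorem eval_act (w : ℕ) (a b c d : ℤ) (Q : ℂ[X]) (hQ : Q.natDegree ≤ w) (t : ℂ)
    (ht : (c : ℂ) * t + d ≠ 0) :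
    (act ℂ w a b c d Q).eval t =
      ((c : ℂ) * t + d) ^ w * Q.eval (((a : ℂ) * t + b) / ((c : ℂ) * t + d)) := by
  rw [act_apply, eval_finsetSum, eval_eq_sum_range' (Nat.lt_succ_of_le hQ), Finset.mul_sum]
  refine Finset.sum_congr rfl fun j hj => ?_
  have hj' : j ≤ w := Nat.lt_succ_iff.mp (Finset.mem_range.mp hj)
  simp only [actMono, eval_mul, eval_C, eval_pow, eval_add, eval_X]
  rw [div_pow]
  have : ((c : ℂ) * t + d) ^ w = ((c : ℂ) * t + d) ^ (w - j) * ((c : ℂ) * t + d) ^ j := by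
    rw [← pow_add]; congr 1; omega
  rw [this]
  generalize (c : ℂ) * t + d = u at *
  field_simp

theorem slash_eval (w : ℕ) (g : GL (Fin 2) ℝ) (hg : 0 < g.val.det) (a b c d : ℤ)
    (hg' : g.val = !![(a : ℝ), (b : ℝ); (c : ℝ), (d : ℝ)]) (Q : ℂ[X]) (hQ : Q.natDegree ≤ w) :
    ((fun τ : ℍ => Q.eval (τ : ℂ)) ∣[-(w : ℤ)] g) =
      fun τ : ℍ => ((g.val.det : ℂ)⁻¹) ^ (w + 1) * (act ℂ w a b c d Q).eval (τ : ℂ) := by
  have hdet : g.det.val = g.val.det := Matrix.GeneralLinearGroup.val_det_apply g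
  have hdetℂ : (g.val.det : ℂ) ≠ 0 := Complex.ofReal_ne_zero.mpr hg.ne'
  have hσ (x) : σ g x = x := by
    rw [σ, if_pos (by rw [hdet]; exact hg)]; rfl
  ext τ
  have hden : denom g τ = (c : ℂ) * τ + d := by
    simp [denom, hg']
  have hnum : num g τ = (a : ℂ) * τ + b := by
    simp [num, hg']
  have hz : (c : ℂ) * τ + d ≠ 0 := hden ▸ denom_ne_zero g τ
  rw [ModularForm.slash_apply, hσ, hdet, abs_of_pos hg,
    UpperHalfPlane.coe_smul_of_det_pos (by rw [hdet]; exact hg), hden, hnum,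
    eval_act w a b c d Q hQ τ hz]
  rw [neg_neg, zpow_natCast, show -(w : ℤ) - 1 = -((w + 1 : ℕ) : ℤ) by push_cast; ring, zpow_neg,
    zpow_natCast, inv_pow]
  ring

end

end Fermat.Agent.S22
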