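import Fermat.Agent.S22.Eichler
import Fermat.Agent.S22.PolyAct

set_option autoImplicit false

open UpperHalfPlane Function Polynomial Matrix.SpecialLinearGroup
open scoped Manifold MatrixGroups ModularForm Derivative

namespace Fermat.Agent.S22

noncomputable section

/-- evaluation of a polynomial on the upper half plane -/
def ev (Q : ℂ[X]) : ℍ → ℂ := fun τ => Q.eval (τ : ℂ)

theorem ev_add (P Q : ℂ[X]) : ev (P + Q) = ev P + ev Q := by
  ext τ; simp [ev]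

theorem ev_smul (c : ℂ) (Q : ℂ[X]) : ev (c • Q) = c • ev Q := by
  ext τ; simp [ev]

theorem ev_zero : ev 0 = 0 := by
  ext τ; simp [ev]

theorem ev_sum {ι : Type*} (s : Finset ι) (Q : ι → ℂ[X]) : ev (∑ x ∈ s, Q x) = ∑ x ∈ s, ev (Q x) := by
  ext τ; simp [ev, eval_finsetSum]

theorem ev_injective : Injective ev := by
  intro P Q h
  have hinj : Function.Injective (fun m : ℕ => (Complex.I + m : ℂ)) := by
    intro a b hab
    have : (a : ℂ) = b := by simpa using hab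
    exact_mod_cast this
  have : P - Q = 0 := by
    apply Polynomial.eq_zero_of_infinite_isRoot
    refine (Set.infinite_range_of_injective hinj).mono ?_
    rintro _ ⟨m, rfl⟩
    have him : 0 < (Complex.I + m : ℂ).im := by simp
    have := congrFun h ⟨Complex.I + m, him⟩
    simp only [ev] at this
    simp [this]
  exact sub_eq_zero.mp this

theorem det_mapGL (γ : SL(2, ℤ)) : (mapGL ℝ γ : GL (Fin 2) ℝ).val.det = 1 := by
  rw [← Matrix.GeneralLinearGroup.val_det_apply]; simp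

theorem val_mapGL (γ : SL(2, ℤ)) : (mapGL ℝ γ : GL (Fin 2) ℝ).val =
    !![((γ 0 0 : ℤ) : ℝ), ((γ 0 1 : ℤ) : ℝ); ((γ 1 0 : ℤ) : ℝ), ((γ 1 1 : ℤ) : ℝ)] := by
  ext i j
  fin_cases i <;> fin_cases j <;> simp

/-- action of `SL(2,ℤ)` on polynomials of degree `≤ w`. -/
def actSL (w : ℕ) (γ : SL(2, ℤ)) : ℂ[X] →ₗ[ℂ] ℂ[X] := act ℂ w (γ 0 0) (γ 0 1) (γ 1 0) (γ 1 1)

theorem ev_slash_SL (w : ℕ) (γ : SL(2, ℤ)) (Q : ℂ[X]) (hQ : Q.natDegree ≤ w) :
    ev Q ∣[-(w : ℤ)] (mapGL ℝ γ : GL (Fin 2) ℝ) = ev (actSL w γ Q) := by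
  have := slash_eval w (mapGL ℝ γ) (by rw [det_mapGL]; exact one_pos) _ _ _ _ (val_mapGL γ) Q hQ
  rw [det_mapGL] at this
  simp only [Complex.ofReal_one, inv_one, one_pow, one_mul] at this
  exact this

variable {N : ℕ} (w : ℕ)

theorem mapGL_mem (γ : CongruenceSubgroup.Gamma0 N) :
    (mapGL ℝ (γ : SL(2, ℤ)) : GL (Fin 2) ℝ) ∈
      (CongruenceSubgroup.Gamma0 N : Subgroup (GL (Fin 2) ℝ)) :=
  Subgroup.mem_map_of_mem _ γ.2

theorem exists_pp (γ : CongruenceSubgroup.Gamma0 N)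
    (f : CuspForm (CongruenceSubgroup.Gamma0 N) ((w : ℤ) + 2)) :
    ∃ Q : ℂ[X], Q.natDegree ≤ w ∧
      eichler (w + 1) f ∣[-(w : ℤ)] (mapGL ℝ (γ : SL(2, ℤ)) : GL (Fin 2) ℝ) - eichler (w + 1) f =
        ev Q := by
  have hF := eichler_spec (w + 1) f
  have hdet := det_mapGL (γ : SL(2, ℤ))
  obtain ⟨Q, hQ, hQe⟩ := exists_poly_of_iter_D_eq_zero w
    (H := eichler (w + 1) f ∣[-(w : ℤ)] (mapGL ℝ (γ : SL(2, ℤ)) : GL (Fin 2) ℝ) - eichler (w + 1) f)
    ((hF.mdiff.slash _ _).sub hF.mdiff) (by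
      rw [iter_D_sub _ (hF.mdiff.slash _ _) hF.mdiff, bol w hF.mdiff (by rw [hdet]; exact one_pos),
        hF.iter, hdet, SlashInvariantFormClass.slash_action_eq f _ (mapGL_mem γ)]
      simp)
  exact ⟨Q, hQ, funext hQe⟩

/-- the period polynomial -/
def pp (γ : CongruenceSubgroup.Gamma0 N)
    (f : CuspForm (CongruenceSubgroup.Gamma0 N) ((w : ℤ) + 2)) : ℂ[X] :=
  (exists_pp w γ f).choose

theorem natDegree_pp (γ : CongruenceSubgroup.Gamma0 N)
    (f : CuspForm (CongruenceSubgroup.Gamma0 N) ((w : ℤ) + 2)) : (pp w γ f).natDegree ≤ w :=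
  (exists_pp w γ f).choose_spec.1

theorem ev_pp (γ : CongruenceSubgroup.Gamma0 N)
    (f : CuspForm (CongruenceSubgroup.Gamma0 N) ((w : ℤ) + 2)) :
    ev (pp w γ f) =
      eichler (w + 1) f ∣[-(w : ℤ)] (mapGL ℝ (γ : SL(2, ℤ)) : GL (Fin 2) ℝ) - eichler (w + 1) f :=
  (exists_pp w γ f).choose_spec.2.symm

theorem eichler_slash (γ : CongruenceSubgroup.Gamma0 N)
    (f : CuspForm (CongruenceSubgroup.Gamma0 N) ((w : ℤ) + 2)) :
    eichler (w + 1) f ∣[-(w : ℤ)] (mapGL ℝ (γ : SL(2, ℤ)) : GL (Fin 2) ℝ) =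
      ev (pp w γ f) + eichler (w + 1) f := by
  rw [ev_pp]; abel

theorem smul_slash_pos (k : ℤ) (c : ℂ) (F : ℍ → ℂ) {g : GL (Fin 2) ℝ} (hg : 0 < g.val.det) :
    (c • F) ∣[k] g = c • (F ∣[k] g) := by
  have hdet : g.det.val = g.val.det := Matrix.GeneralLinearGroup.val_det_apply g
  rw [ModularForm.smul_slash, σ, if_pos (by rw [hdet]; exact hg)]
  rfl

theorem sub_slash (k : ℤ) (F G : ℍ → ℂ) (g : GL (Fin 2) ℝ) :
    (F - G) ∣[k] g = F ∣[k] g - G ∣[k] g := by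
  rw [sub_eq_add_neg, SlashAction.add_slash, SlashAction.neg_slash, ← sub_eq_add_neg]

theorem pp_add (γ : CongruenceSubgroup.Gamma0 N)
    (f g : CuspForm (CongruenceSubgroup.Gamma0 N) ((w : ℤ) + 2)) :
    pp w γ (f + g) = pp w γ f + pp w γ g := by
  apply ev_injective
  rw [ev_add, ev_pp, ev_pp, ev_pp, eichler_add, SlashAction.add_slash]
  abel

theorem pp_smul (γ : CongruenceSubgroup.Gamma0 N) (c : ℂ)
    (f : CuspForm (CongruenceSubgroup.Gamma0 N) ((w : ℤ) + 2)) :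
    pp w γ (c • f) = c • pp w γ f := by
  apply ev_injective
  rw [ev_smul, ev_pp, ev_pp, eichler_smul,
    smul_slash_pos _ _ _ (by rw [det_mapGL]; exact one_pos), smul_sub]

theorem pp_one (f : CuspForm (CongruenceSubgroup.Gamma0 N) ((w : ℤ) + 2)) : pp w 1 f = 0 := by
  apply ev_injective
  rw [ev_pp, ev_zero]
  simp

theorem pp_mul (γ γ' : CongruenceSubgroup.Gamma0 N)
    (f : CuspForm (CongruenceSubgroup.Gamma0 N) ((w : ℤ) + 2)) :
    pp w (γ * γ') f = actSL w γ' (pp w γ f) + pp w γ' f := by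
  apply ev_injective
  rw [ev_add, ← ev_slash_SL w _ _ (natDegree_pp w γ f), ev_pp, ev_pp, ev_pp]
  rw [Subgroup.coe_mul, map_mul, SlashAction.slash_mul, sub_slash]
  abel

/-- coefficient functionals of the period polynomials -/
def lam (γ : CongruenceSubgroup.Gamma0 N) (i : ℕ) :
    Module.Dual ℂ (CuspForm (CongruenceSubgroup.Gamma0 N) ((w : ℤ) + 2)) where
  toFun f := (pp w γ f).coeff i
  map_add' f g := by rw [pp_add, coeff_add]
  map_smul' c f := by rw [pp_smul, coeff_smul]; rfl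

theorem lam_apply (γ : CongruenceSubgroup.Gamma0 N) (i : ℕ)
    (f : CuspForm (CongruenceSubgroup.Gamma0 N) ((w : ℤ) + 2)) :
    lam w γ i f = (pp w γ f).coeff i := rfl

end

end Fermat.Agent.S22
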