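import Fermat.Statements.S22
import Fermat.Prelude.Thm_CongruenceSubgroup_one_mem_strictPeriods_Gamma0
import Fermat.Agent.S22.Prim
import Fermat.Agent.S22.Bol

set_option autoImplicit false

open UpperHalfPlane Function Polynomial
open scoped Manifold MatrixGroups ModularForm Derivative

namespace Fermat.Agent.S22

noncomputable section

/-- `F` is the `n`-fold cuspidal primitive of `φ`. -/
structure IsEichler (n : ℕ) (F φ : ℍ → ℂ) : Prop where
  mdiff : MDiff F
  per : Periodic (F ∘ ofComplex) 1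
  zero : IsZeroAtImInfty F
  iter : D^[n] F = φ

theorem periodic_add {F G : ℍ → ℂ} (hF : Periodic (F ∘ ofComplex) 1)
    (hG : Periodic (G ∘ ofComplex) 1) : Periodic ((F + G) ∘ ofComplex) 1 := by
  intro z
  have h1 := hF z
  have h2 := hG z
  simp only [comp_apply, Pi.add_apply] at *
  rw [h1, h2]

theorem periodic_sub {F G : ℍ → ℂ} (hF : Periodic (F ∘ ofComplex) 1)
    (hG : Periodic (G ∘ ofComplex) 1) : Periodic ((F - G) ∘ ofComplex) 1 := by
  intro z
  have h1 := hF z
  have h2 := hG z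
  simp only [comp_apply, Pi.sub_apply] at *
  rw [h1, h2]

theorem periodic_smul (c : ℂ) {F : ℍ → ℂ} (hF : Periodic (F ∘ ofComplex) 1) :
    Periodic ((c • F) ∘ ofComplex) 1 := by
  intro z
  have h1 := hF z
  simp only [comp_apply, Pi.smul_apply] at *
  rw [h1]

theorem IsEichler.add {n : ℕ} {F G φ ψ : ℍ → ℂ} (hF : IsEichler n F φ) (hG : IsEichler n G ψ) :
    IsEichler n (F + G) (φ + ψ) where
  mdiff := hF.mdiff.add hG.mdiff
  per := periodic_add hF.per hG.per
  zero := hF.zero.add hG.zero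
  iter := by rw [iter_D_add n hF.mdiff hG.mdiff, hF.iter, hG.iter]

theorem IsEichler.smul {n : ℕ} {F φ : ℍ → ℂ} (c : ℂ) (hF : IsEichler n F φ) :
    IsEichler n (c • F) (c • φ) where
  mdiff := mdiff_smul c hF.mdiff
  per := periodic_smul c hF.per
  zero := hF.zero.smul c
  iter := by rw [iter_D_smul n c hF.mdiff, hF.iter]

theorem eq_zero_of_iter_D_eq_zero (n : ℕ) {H : ℍ → ℂ} (hH : MDiff H)
    (hper : Periodic (H ∘ ofComplex) 1) (hz : IsZeroAtImInfty H) (h0 : D^[n + 1] H = 0) :
    H = 0 := by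
  obtain ⟨Q, -, hQ⟩ := exists_poly_of_iter_D_eq_zero n hH h0
  obtain ⟨c, rfl⟩ := const_of_periodic_poly (h := 1) one_pos Q (by
    intro τ
    have him : 0 < ((τ : ℂ) + ((1 : ℝ) : ℂ)).im := by simpa using τ.im_pos
    have h1 := hper τ
    simp only [comp_apply, ofComplex_apply] at h1
    have h2 : ofComplex ((τ : ℂ) + 1) = ⟨(τ : ℂ) + ((1 : ℝ) : ℂ), him⟩ := by
      rw [← ofComplex_apply_of_im_pos him]; simp
    rw [h2, hQ, hQ] at h1
    exact h1)
  have hc : H = fun _ => c := by
    ext τ; simp [hQ]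
  have : Filter.Tendsto H atImInfty (nhds c) := by
    rw [hc]; exact tendsto_const_nhds
  have hc0 : c = 0 := tendsto_nhds_unique this hz
  rw [hc, hc0]; rfl

theorem IsEichler.unique {n : ℕ} {F G φ : ℍ → ℂ} (hF : IsEichler (n + 1) F φ)
    (hG : IsEichler (n + 1) G φ) : F = G := by
  have := eq_zero_of_iter_D_eq_zero n (hF.mdiff.sub hG.mdiff) (periodic_sub hF.per hG.per)
    (by rw [sub_eq_add_neg]; exact hF.zero.add hG.zero.neg)
    (by rw [iter_D_sub _ hF.mdiff hG.mdiff, hF.iter, hG.iter, sub_self])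
  exact sub_eq_zero.mp this

variable {N : ℕ} {k : ℤ}

theorem cuspForm_periodic (f : CuspForm (CongruenceSubgroup.Gamma0 N) k) :
    Periodic ((f : ℍ → ℂ) ∘ ofComplex) 1 := by
  have := SlashInvariantFormClass.periodic_comp_ofComplex f
    (CongruenceSubgroup.one_mem_strictPeriods_Gamma0 N)
  simpa using this

theorem cuspForm_zero (f : CuspForm (CongruenceSubgroup.Gamma0 N) k) :
    IsZeroAtImInfty (f : ℍ → ℂ) := by
  have : Fact (IsCusp OnePoint.infty (CongruenceSubgroup.Gamma0 N : Subgroup (GL (Fin 2) ℝ))) :=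
    ⟨Subgroup.isCusp_of_mem_strictPeriods one_pos
      (CongruenceSubgroup.one_mem_strictPeriods_Gamma0 N)⟩
  exact CuspFormClass.zero_at_infty f

theorem exists_isEichler (n : ℕ) (f : CuspForm (CongruenceSubgroup.Gamma0 N) k) :
    ∃ F : ℍ → ℂ, IsEichler n F f := by
  obtain ⟨F, h1, h2, h3, h4⟩ := exists_iter_prim (h := 1) one_pos n (CuspFormClass.holo f)
    (by simpa using cuspForm_periodic f) (cuspForm_zero f)
  exact ⟨F, h1, by simpa using h2, h3, h4⟩

/-- The Eichler integral of a cusp form. -/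
def eichler (n : ℕ) (f : CuspForm (CongruenceSubgroup.Gamma0 N) k) : ℍ → ℂ :=
  (exists_isEichler n f).choose

theorem eichler_spec (n : ℕ) (f : CuspForm (CongruenceSubgroup.Gamma0 N) k) :
    IsEichler n (eichler n f) f :=
  (exists_isEichler n f).choose_spec

theorem eichler_add (n : ℕ) (f g : CuspForm (CongruenceSubgroup.Gamma0 N) k) :
    eichler (n + 1) (f + g) = eichler (n + 1) f + eichler (n + 1) g :=
  (eichler_spec (n + 1) (f + g)).unique
    (by simpa using (eichler_spec (n + 1) f).add (eichler_spec (n + 1) g))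

theorem eichler_smul (n : ℕ) (c : ℂ) (f : CuspForm (CongruenceSubgroup.Gamma0 N) k) :
    eichler (n + 1) (c • f) = c • eichler (n + 1) f :=
  (eichler_spec (n + 1) (c • f)).unique
    (by simpa using (eichler_spec (n + 1) f).smul c)

end

end Fermat.Agent.S22
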