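import Fermat.Agent.S22.Lattice

set_option autoImplicit false

open UpperHalfPlane Function Polynomial Matrix.SpecialLinearGroup
open scoped Manifold MatrixGroups ModularForm Derivative

namespace Fermat.Agent.S22

noncomputable section

theorem iter_D_zero (n : ℕ) : D^[n] (0 : ℍ → ℂ) = 0 := by
  induction n with
  | zero => rfl
  | succ n ih =>
    rw [Function.iterate_succ_apply]
    have : D (0 : ℍ → ℂ) = 0 := Derivative.normalizedDerivOfComplex_const 0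
    rw [this, ih]

theorem mdiff_sum {ι : Type*} (s : Finset ι) (G : ι → ℍ → ℂ) (hG : ∀ x, MDiff (G x)) :
    MDiff (∑ x ∈ s, G x) :=
  Finset.sum_induction _ (fun g : ℍ → ℂ => MDiff g) (fun _ _ ha hb => ha.add hb)
    mdifferentiable_const (fun x _ => hG x)

theorem iter_D_fsum (n : ℕ) {ι : Type*} (s : Finset ι) (G : ι → ℍ → ℂ) (hG : ∀ x, MDiff (G x)) :
    D^[n] (∑ x ∈ s, G x) = ∑ x ∈ s, D^[n] (G x) := by
  classical
  induction s using Finset.induction_on with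
  | empty => simpa using iter_D_zero n
  | insert x s hx ih =>
    rw [Finset.sum_insert hx, Finset.sum_insert hx, iter_D_add n (hG x) (mdiff_sum s G hG), ih]

variable {N : ℕ} (w : ℕ)

section generic

variable {ι : Type*} [Fintype ι]
  (T : Module.End ℂ (CuspForm (CongruenceSubgroup.Gamma0 N) ((w : ℤ) + 2)))
  (α : ι → GL (Fin 2) ℝ) (p : ℕ) (hp : 0 < p) (a b c d : ι → ℤ)
  (hα : ∀ x, (α x).val = !![((a x : ℤ) : ℝ), ((b x : ℤ) : ℝ); ((c x : ℤ) : ℝ), ((d x : ℤ) : ℝ)])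
  (hdet : ∀ x, (α x).val.det = p)
  (hT : ∀ f : CuspForm (CongruenceSubgroup.Gamma0 N) ((w : ℤ) + 2),
    (T f : ℍ → ℂ) = ∑ x, (f : ℍ → ℂ) ∣[(w : ℤ) + 2] α x)
  (hper : ∀ F : ℍ → ℂ, Periodic (F ∘ ofComplex) 1 →
    Periodic ((∑ x, F ∣[-(w : ℤ)] α x) ∘ ofComplex) 1)
  (hzero : ∀ F : ℍ → ℂ, IsZeroAtImInfty F → IsZeroAtImInfty (∑ x, F ∣[-(w : ℤ)] α x))

include hp hdet hT hper hzero in
theorem eichler_hecke (f : CuspForm (CongruenceSubgroup.Gamma0 N) ((w : ℤ) + 2)) :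
    eichler (w + 1) (T f) = ((p : ℂ) ^ (w + 1)) • ∑ x, eichler (w + 1) f ∣[-(w : ℤ)] α x := by
  have hF := eichler_spec (w + 1) f
  have hp' : (p : ℂ) ≠ 0 := by exact_mod_cast hp.ne'
  have hpos : ∀ x, 0 < (α x).val.det := fun x => by rw [hdet]; exact_mod_cast hp
  refine (eichler_spec (w + 1) (T f)).unique ⟨?_, ?_, ?_, ?_⟩
  · exact mdiff_smul _ (mdiff_sum _ _ fun x => hF.mdiff.slash _ _)
  · exact periodic_smul _ (hper _ hF.per)
  · exact (hzero _ hF.zero).smul _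
  · rw [iter_D_smul _ _ (mdiff_sum _ _ fun x => hF.mdiff.slash _ _),
      iter_D_fsum _ _ _ (fun x => hF.mdiff.slash _ _), hT, Finset.smul_sum]
    refine Finset.sum_congr rfl fun x _ => ?_
    rw [bol w hF.mdiff (hpos x), hF.iter, hdet, smul_smul]
    have : (p : ℂ) ^ (w + 1) * (((p : ℝ) : ℂ)⁻¹) ^ (w + 1) = 1 := by
      rw [← mul_pow]
      simp [hp']
    rw [this, one_smul]

include hp hα hdet hT hper hzero in
theorem pp_hecke (γ : CongruenceSubgroup.Gamma0 N) (σ : Equiv.Perm ι)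
    (γ' : ι → CongruenceSubgroup.Gamma0 N)
    (hcomm : ∀ x, α x * (mapGL ℝ (γ : SL(2, ℤ)) : GL (Fin 2) ℝ) =
      (mapGL ℝ (γ' x : SL(2, ℤ)) : GL (Fin 2) ℝ) * α (σ x))
    (f : CuspForm (CongruenceSubgroup.Gamma0 N) ((w : ℤ) + 2)) :
    pp w γ (T f) =
      ∑ x, act ℂ w (a (σ x)) (b (σ x)) (c (σ x)) (d (σ x)) (pp w (γ' x) f) := by
  have hp' : (p : ℂ) ≠ 0 := by exact_mod_cast hp.ne'
  have hpos : ∀ x, 0 < (α x).val.det := fun x => by rw [hdet]; exact_mod_cast hp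
  apply ev_injective
  rw [ev_pp, eichler_hecke w T α p hp hdet hT hper hzero f,
    smul_slash_pos _ _ _ (by rw [det_mapGL]; exact one_pos), SlashAction.sum_slash, ← smul_sub,
    ev_sum]
  have h1 : ∀ x, (eichler (w + 1) f ∣[-(w : ℤ)] α x) ∣[-(w : ℤ)]
      (mapGL ℝ (γ : SL(2, ℤ)) : GL (Fin 2) ℝ) =
      ((((p : ℂ))⁻¹) ^ (w + 1)) •
        ev (act ℂ w (a (σ x)) (b (σ x)) (c (σ x)) (d (σ x)) (pp w (γ' x) f)) +
        eichler (w + 1) f ∣[-(w : ℤ)] α (σ x) := by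
    intro x
    rw [← SlashAction.slash_mul, hcomm x, SlashAction.slash_mul, eichler_slash,
      SlashAction.add_slash]
    congr 1
    have := slash_eval w (α (σ x)) (hpos _) _ _ _ _ (hα (σ x)) (pp w (γ' x) f)
      (natDegree_pp w (γ' x) f)
    rw [hdet] at this
    rw [show ev (pp w (γ' x) f) = fun τ : ℍ => (pp w (γ' x) f).eval (τ : ℂ) from rfl, this]
    ext τ
    simp [ev]
  simp only [h1]
  rw [Finset.sum_add_distrib, Equiv.sum_comp σ (fun x => eichler (w + 1) f ∣[-(w : ℤ)] α x),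
    add_sub_cancel_right, ← Finset.smul_sum, smul_smul]
  have : (p : ℂ) ^ (w + 1) * ((p : ℂ)⁻¹) ^ (w + 1) = 1 := by
    rw [← mul_pow]
    simp [hp']
  rw [this, one_smul]

include hp hα hdet hT hper hzero in
theorem lam_comp_mem
    (hcomm : ∀ γ : CongruenceSubgroup.Gamma0 N, ∃ σ : Equiv.Perm ι, ∀ x,
      ∃ γ' : CongruenceSubgroup.Gamma0 N, α x * (mapGL ℝ (γ : SL(2, ℤ)) : GL (Fin 2) ℝ) =
        (mapGL ℝ (γ' : SL(2, ℤ)) : GL (Fin 2) ℝ) * α (σ x))
    (γ : CongruenceSubgroup.Gamma0 N) (i : ℕ) : lam w γ i ∘ₗ T ∈ periodLam N w := by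
  obtain ⟨σ, hσ⟩ := hcomm γ
  choose γ' hγ' using hσ
  have : lam w γ i ∘ₗ T = ∑ x, ∑ j ∈ Finset.range (w + 1),
      ((actMono ℤ w (a (σ x)) (b (σ x)) (c (σ x)) (d (σ x)) j).coeff i) • lam w (γ' x) j := by
    ext f
    rw [LinearMap.comp_apply, lam_apply,
      pp_hecke w T α p hp a b c d hα hdet hT hper hzero γ σ γ' hγ' f, finsetSum_coeff,
      LinearMap.sum_apply]
    exact Finset.sum_congr rfl fun x _ => coeff_act_pp w _ _ _ _ (γ' x) i f
  rw [this]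
  exact (periodLam N w).sum_mem fun x _ => (periodLam N w).sum_mem fun j _ =>
    (periodLam N w).smul_mem _ (lam_mem w _ _)

end generic

end

end Fermat.Agent.S22
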