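import Fermat.Statements.S22
import Fermat.Agent.S22.Bol

set_option autoImplicit false

open UpperHalfPlane Function Polynomial ModularForm
open scoped Manifold MatrixGroups ModularForm Derivative
open P2MW.S_ModularForm_heckeT_slash_eq_self_of_mem_Gamma0.ModularForm.HeckeSlashInvariance
open Matrix.SpecialLinearGroup (mapGL)

namespace Fermat.Agent.S22

noncomputable section

theorem iter_D_sum {ι : Type} (s : Finset ι) (n : ℕ) (A : ι → ℍ → ℂ) (hA : ∀ i, MDiff (A i)) :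
    D^[n] (∑ i ∈ s, A i) = ∑ i ∈ s, D^[n] (A i) := by
  classical
  induction s using Finset.induction_on with
  | empty =>
    simp only [Finset.sum_empty]
    induction n with
    | zero => rfl
    | succ n ih =>
      rw [Function.iterate_succ_apply]
      have : D (0 : ℍ → ℂ) = 0 := Derivative.normalizedDerivOfComplex_const 0
      rw [this, ih]
  | insert a s ha ih =>
    rw [Finset.sum_insert ha, Finset.sum_insert ha, iter_D_add n (hA a), ih]
    exact MDifferentiable.sum (f := A) fun i _ => hA i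

theorem val_det_heckeMatrix {p : ℕ} (hp : p ≠ 0) (j : ℕ) : (heckeMatrix p j).val.det = p := by
  rw [← Matrix.GeneralLinearGroup.val_det_apply, det_heckeMatrix hp]

theorem val_det_heckeDiagMatrix {p : ℕ} (hp : p ≠ 0) : (heckeDiagMatrix p).val.det = p := by
  rw [← Matrix.GeneralLinearGroup.val_det_apply, det_heckeDiagMatrix hp]

/-- Bol's identity for `U_p`. -/
theorem iter_D_heckeU (w : ℕ) {p : ℕ} (hp : p ≠ 0) {F : ℍ → ℂ} (hF : MDiff F) :
    D^[w + 1] (heckeU (-(w : ℤ)) p F) =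
      ((p : ℂ)⁻¹) ^ (w + 1) • heckeU ((w : ℤ) + 2) p (D^[w + 1] F) := by
  have hp0 : (0 : ℝ) < p := by exact_mod_cast Nat.pos_of_ne_zero hp
  rw [heckeU_def, heckeU_def, iter_D_sum _ _ _ (fun j => hF.slash _ _), Finset.smul_sum]
  refine Finset.sum_congr rfl fun j _ => ?_
  rw [bol w hF (by rw [val_det_heckeMatrix hp]; exact hp0), val_det_heckeMatrix hp]
  simp

/-- Bol's identity for `T_p`. -/
theorem iter_D_heckeT (w : ℕ) {p : ℕ} (hp : p ≠ 0) {F : ℍ → ℂ} (hF : MDiff F) :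
    D^[w + 1] (heckeT (-(w : ℤ)) p F) =
      ((p : ℂ)⁻¹) ^ (w + 1) • heckeT ((w : ℤ) + 2) p (D^[w + 1] F) := by
  have hp0 : (0 : ℝ) < p := by exact_mod_cast Nat.pos_of_ne_zero hp
  rw [heckeT_eq_heckeU_add, heckeT_eq_heckeU_add,
    iter_D_add _ (mdifferentiable_heckeU hF _ _) (hF.slash _ _), iter_D_heckeU w hp hF, smul_add,
    bol w hF (by rw [val_det_heckeDiagMatrix hp]; exact hp0), val_det_heckeDiagMatrix hp]
  simp

theorem isZeroAtImInfty_sum {ι : Type*} (s : Finset ι) (A : ι → ℍ → ℂ)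
    (hA : ∀ i, IsZeroAtImInfty (A i)) : IsZeroAtImInfty (∑ i ∈ s, A i) := by
  classical
  induction s using Finset.induction_on with
  | empty =>
    rw [Finset.sum_empty]
    exact Filter.zero_zeroAtFilter atImInfty
  | insert a s ha ih =>
    rw [Finset.sum_insert ha]
    exact (hA a).add ih

theorem isZeroAtImInfty_heckeU (k : ℤ) {p : ℕ} (hp : p ≠ 0) {F : ℍ → ℂ} (hF : IsZeroAtImInfty F) :
    IsZeroAtImInfty (heckeU k p F) := by
  rw [heckeU_def]
  exact isZeroAtImInfty_sum _ _ fun j => hF.slash k (by simp [val_heckeMatrix hp])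

theorem isZeroAtImInfty_heckeT (k : ℤ) {p : ℕ} (hp : p ≠ 0) {F : ℍ → ℂ} (hF : IsZeroAtImInfty F) :
    IsZeroAtImInfty (heckeT k p F) := by
  rw [heckeT_eq_heckeU_add]
  exact (isZeroAtImInfty_heckeU k hp hF).add (hF.slash k (by simp [val_heckeDiagMatrix hp]))

theorem sub_slash' (k : ℤ) (g : GL (Fin 2) ℝ) (A B : ℍ → ℂ) :
    (A - B) ∣[k] g = A ∣[k] g - B ∣[k] g := by
  rw [sub_eq_add_neg, SlashAction.add_slash, SlashAction.neg_slash, ← sub_eq_add_neg]

/-- The Hecke operator `T_p` on cocycles. -/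
theorem heckeT_slash_sub {N p : ℕ} [Fact p.Prime] (hpN : ¬ p ∣ N) (g : SL(2, ℤ))
    (hg : g ∈ CongruenceSubgroup.Gamma0 N) :
    ∃ g' : OnePoint (ZMod p) → SL(2, ℤ), (∀ x, g' x ∈ CongruenceSubgroup.Gamma0 N) ∧
      ∀ (k : ℤ) (F : ℍ → ℂ),
        heckeT k p F ∣[k] mapGL ℝ g - heckeT k p F =
          ∑ x : OnePoint (ZMod p),
            (F ∣[k] mapGL ℝ (g' x) - F) ∣[k] heckeRep p (redMatrix p g • x) := by
  have hcN : (N : ℤ) ∣ g 1 0 :=
    (ZMod.intCast_zmod_eq_zero_iff_dvd _ _).mp (CongruenceSubgroup.Gamma0_mem.mp hg)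
  choose g' hg' hmul using fun x => heckeRep_mul hpN g hcN x
  refine ⟨g', fun x => CongruenceSubgroup.Gamma0_mem.mpr
    ((ZMod.intCast_zmod_eq_zero_iff_dvd _ _).mpr (hg' x)), fun k F => ?_⟩
  have h1 : heckeT k p F ∣[k] mapGL ℝ g =
      ∑ x : OnePoint (ZMod p), (F ∣[k] mapGL ℝ (g' x)) ∣[k] heckeRep p (redMatrix p g • x) := by
    rw [heckeT_eq_sum_onePoint k F, SlashAction.sum_slash]
    refine Finset.sum_congr rfl fun x _ => ?_
    rw [← SlashAction.slash_mul, hmul, SlashAction.slash_mul]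
  have h2 : heckeT k p F =
      ∑ x : OnePoint (ZMod p), F ∣[k] heckeRep p (redMatrix p g • x) := by
    rw [heckeT_eq_sum_onePoint k F]
    exact (Equiv.sum_comp (MulAction.toPerm (redMatrix p g)) (fun x ↦ F ∣[k] heckeRep p x)).symm
  rw [h1]
  conv_lhs => rw [h2]
  rw [← Finset.sum_sub_distrib]
  exact Finset.sum_congr rfl fun x _ => (sub_slash' _ _ _ _).symm

/-- The Hecke operator `U_p` on cocycles. -/
theorem heckeU_slash_sub {N p : ℕ} [NeZero p] (hpN : p ∣ N) (g : SL(2, ℤ))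
    (hg : g ∈ CongruenceSubgroup.Gamma0 N) :
    ∃ (g' : ZMod p → SL(2, ℤ)) (σ : Equiv.Perm (ZMod p)),
      (∀ x, g' x ∈ CongruenceSubgroup.Gamma0 N) ∧
      ∀ (k : ℤ) (F : ℍ → ℂ),
        heckeU k p F ∣[k] mapGL ℝ g - heckeU k p F =
          ∑ x : ZMod p, (F ∣[k] mapGL ℝ (g' x) - F) ∣[k] heckeMatrix p (σ x).val := by
  have hcN : (N : ℤ) ∣ g 1 0 :=
    (ZMod.intCast_zmod_eq_zero_iff_dvd _ _).mp (CongruenceSubgroup.Gamma0_mem.mp hg)
  have hc : (p : ℤ) ∣ g 1 0 := (Int.natCast_dvd_natCast.mpr hpN).trans hcN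
  choose g' hg' hmul using fun x => heckeMatrix_mul_of_dvd g hc x
  refine ⟨g', affinePerm g ((ZMod.intCast_zmod_eq_zero_iff_dvd _ _).mpr hc), fun x => ?_,
    fun k F => ?_⟩
  · rw [CongruenceSubgroup.Gamma0_mem, hg']
    push_cast
    rw [CongruenceSubgroup.Gamma0_mem.mp hg, mul_zero]
  set σ := affinePerm g ((ZMod.intCast_zmod_eq_zero_iff_dvd _ _).mpr hc) with hσ
  have h1 : heckeU k p F ∣[k] mapGL ℝ g =
      ∑ x : ZMod p, (F ∣[k] mapGL ℝ (g' x)) ∣[k] heckeMatrix p (σ x).val := by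
    rw [heckeU_eq_sum_zmod k F, SlashAction.sum_slash]
    refine Finset.sum_congr rfl fun x _ => ?_
    rw [← SlashAction.slash_mul, hmul, SlashAction.slash_mul]
  have h2 : heckeU k p F = ∑ x : ZMod p, F ∣[k] heckeMatrix p (σ x).val := by
    rw [heckeU_eq_sum_zmod k F]
    exact (Equiv.sum_comp σ (fun x ↦ F ∣[k] heckeMatrix p x.val)).symm
  rw [h1]
  conv_lhs => rw [h2]
  rw [← Finset.sum_sub_distrib]
  exact Finset.sum_congr rfl fun x _ => (sub_slash' _ _ _ _).symm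

theorem val_heckeRep {p : ℕ} (hp : p ≠ 0) (y : OnePoint (ZMod p)) :
    ∃ a b d : ℤ, (heckeRep p y).val = !![(a : ℝ), (b : ℝ); ((0 : ℤ) : ℝ), (d : ℝ)] ∧
      (heckeRep p y).val.det = p := by
  induction y using OnePoint.rec with
  | infty =>
    refine ⟨p, 0, 1, ?_, val_det_heckeDiagMatrix hp⟩
    rw [heckeRep_infty, val_heckeDiagMatrix hp]; simp
  | coe j =>
    refine ⟨1, j.val, p, ?_, val_det_heckeMatrix hp _⟩
    rw [heckeRep_coe, val_heckeMatrix hp]; simp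

end

end Fermat.Agent.S22
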