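import Fermat.Statements.S22
import Fermat.Prelude.Thm_CongruenceSubgroup_one_mem_strictPeriods_Gamma0

set_option autoImplicit false

open UpperHalfPlane ModularForm
open scoped MatrixGroups ModularForm

namespace Fermat.Agent.S22

noncomputable section

variable {Γ : Subgroup (GL (Fin 2) ℝ)} [Γ.HasDetOne]

/-- The `n`-th `q`-expansion coefficient as a linear functional. -/
def coeffL (hΓ : (1 : ℝ) ∈ Γ.strictPeriods) (k : ℤ) (n : ℕ) :
    Module.Dual ℂ (ModularForm Γ k) where
  toFun f := (qExpansion 1 f).coeff n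
  map_add' f g := by
    rw [FunLike.coe_add, ModularForm.qExpansion_add one_pos hΓ f g, map_add]
  map_smul' c f := by
    rw [FunLike.coe_smul, ModularForm.qExpansion_smul one_pos hΓ c f, PowerSeries.coeff_smul]
    rfl

@[simp] theorem coeffL_apply (hΓ : (1 : ℝ) ∈ Γ.strictPeriods) (k : ℤ) (n : ℕ)
    (f : ModularForm Γ k) : coeffL hΓ k n f = (qExpansion 1 f).coeff n := rfl

/-- The `ℤ`-span of the coefficient functionals. -/
def Lam (hΓ : (1 : ℝ) ∈ Γ.strictPeriods) (k : ℤ) : Submodule ℤ (Module.Dual ℂ (ModularForm Γ k)) :=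
  Submodule.span ℤ (Set.range (coeffL hΓ k))

theorem coeffL_mem_Lam (hΓ : (1 : ℝ) ∈ Γ.strictPeriods) (k : ℤ) (n : ℕ) :
    coeffL hΓ k n ∈ Lam hΓ k := Submodule.subset_span ⟨n, rfl⟩

/-- Pull back a `ℤ`-submodule of functionals along a linear map. -/
def pull {V W : Type*} [AddCommGroup V] [Module ℂ V] [AddCommGroup W] [Module ℂ W]
    (φ : V →ₗ[ℂ] W) (Y : Submodule ℤ (Module.Dual ℂ W)) : Submodule ℤ (Module.Dual ℂ V) :=
  Y.map ((LinearMap.dualMap φ).restrictScalars ℤ)

theorem pull_fg {V W : Type*} [AddCommGroup V] [Module ℂ V] [AddCommGroup W] [Module ℂ W]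
    (φ : V →ₗ[ℂ] W) {Y : Submodule ℤ (Module.Dual ℂ W)} (hY : Y.FG) : (pull φ Y).FG :=
  hY.map _

theorem comp_mem_pull {V W : Type*} [AddCommGroup V] [Module ℂ V] [AddCommGroup W] [Module ℂ W]
    (φ : V →ₗ[ℂ] W) {Y : Submodule ℤ (Module.Dual ℂ W)} {l : Module.Dual ℂ W} (hl : l ∈ Y) :
    l ∘ₗ φ ∈ pull φ Y :=
  ⟨l, hl, rfl⟩

theorem fg_of_le_fg {X : Type*} [AddCommGroup X] {A B : Submodule ℤ X} (hB : B.FG) (h : A ≤ B) :
    A.FG := by
  have : IsNoetherian ℤ B := isNoetherian_of_fg_of_noetherian B hB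
  exact isNoetherian_submodule.mp this A h

/-- The abstract induction: if the coefficients with index divisible by `P` are controlled
(in all the shifted weights) then all the coefficients are. -/
theorem fg_of_shift {X : Type*} [AddCommGroup X] (a : ℕ → X) (P : ℕ) (hP : 2 ≤ P)
    (t : ℕ → ℕ → ℤ) (ht0 : ∀ r j, j < r → t r j = 0) (ht1 : ∀ r, t r r = 1)
    (b : ℕ → ℕ → X)
    (hb : ∀ r n, b r n = ∑ x ∈ Finset.HasAntidiagonal.antidiagonal n, t r x.2 • a x.1)
    (c : ℕ → ℤ) (Y : Submodule ℤ X) (hY : Y.FG)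
    (hstep : ∀ r, r < P → ∀ n, b r (n * P) - c r • b r n ∈ Y) :
    (Submodule.span ℤ (Set.range a)).FG := by
  set Y' : Submodule ℤ X := Y ⊔ Submodule.span ℤ {a 0} with hY'
  have hY'fg : Y'.FG := hY.sup (Submodule.fg_span_singleton _)
  have hYle : Y ≤ Y' := le_sup_left
  have key : ∀ i, a i ∈ Y' := by
    intro i
    induction i using Nat.strong_induction_on with
    | _ i ih =>
      rcases Nat.eq_zero_or_pos i with rfl | hi
      · exact (le_sup_right : _ ≤ Y') (Submodule.mem_span_singleton_self _)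
      obtain ⟨r, hr, n, hn⟩ : ∃ r, r < P ∧ ∃ n, n * P = i + r := by
        refine ⟨(P - i % P) % P, Nat.mod_lt _ (by omega), (i + (P - i % P) % P) / P, ?_⟩
        apply Nat.div_mul_cancel
        rw [Nat.dvd_iff_mod_eq_zero, Nat.add_mod, Nat.mod_mod]
        have h1 : i % P < P := Nat.mod_lt _ (by omega)
        rcases Nat.eq_zero_or_pos (i % P) with h0 | h0
        · simp [h0]
        · rw [Nat.mod_eq_of_lt (show P - i % P < P by omega)]
          rw [show i % P + (P - i % P) = P by omega]
          simp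
      have hbn : b r n ∈ Y' := by
        rw [hb]
        refine Submodule.sum_mem _ fun x hx => ?_
        rw [Finset.HasAntidiagonal.mem_antidiagonal] at hx
        by_cases hx2 : x.2 < r
        · rw [ht0 r x.2 hx2, zero_smul]; exact Y'.zero_mem
        · refine Y'.smul_mem _ (ih _ ?_)
          have h2 : 2 * n ≤ n * P := by nlinarith
          omega
      have hbig : b r (i + r) ∈ Y' := by
        have h1 := hYle (hstep r hr n)
        have h2 := Y'.add_mem h1 (Y'.smul_mem (c r) hbn)
        rw [sub_add_cancel, hn] at h2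
        exact h2
      have hmem : (i, r) ∈ Finset.HasAntidiagonal.antidiagonal (i + r) := by simp
      have hsum := hb r (i + r)
      rw [← Finset.add_sum_erase _ _ hmem] at hsum
      simp only [ht1, one_smul] at hsum
      have hrest : ∑ x ∈ (Finset.HasAntidiagonal.antidiagonal (i + r)).erase (i, r), t r x.2 • a x.1 ∈ Y' := by
        refine Submodule.sum_mem _ fun x hx => ?_
        rw [Finset.mem_erase, Finset.HasAntidiagonal.mem_antidiagonal] at hx
        obtain ⟨hne, hx⟩ := hx
        by_cases hx2 : x.2 < r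
        · rw [ht0 r x.2 hx2, zero_smul]; exact Y'.zero_mem
        · refine Y'.smul_mem _ (ih _ ?_)
          have : x.2 ≠ r := by
            intro h
            apply hne
            ext
            · simp; omega
            · exact h
          omega
      have : a i = b r (i + r) -
          ∑ x ∈ (Finset.HasAntidiagonal.antidiagonal (i + r)).erase (i, r), t r x.2 • a x.1 := by
        rw [hsum]; abel
      rw [this]
      exact Y'.sub_mem hbig hrest
  refine fg_of_le_fg hY'fg ?_
  rw [Submodule.span_le]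
  rintro _ ⟨i, rfl⟩
  exact key i

end

end Fermat.Agent.S22
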