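import Mathlib
import Fermat.Statements.S22
import Fermat.Agent.S22.LowWeight
import Fermat.Prelude.Def_CuspForm_IntegralStructure
import Fermat.Prelude.Thm_CuspForm_intLattice_fg
import Fermat.Prelude.Thm_CuspForm_mem_intLattice_of_mem_heckeAlgebra

set_option autoImplicit false

namespace Fermat.Agent.S22

open CongruenceSubgroup

/-- The Hecke algebra is finite over `ℤ` as soon as the integral lattice spans. -/
theorem finite_of_hasIntegralStructure (N : ℕ) [NeZero N] {k : ℤ} (hk : 1 ≤ k) (S : Set ℕ)
    (h : CuspForm.HasIntegralStructure N k) :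
    Module.Finite ℤ (CuspForm.heckeAlgebra N k S) := by
  obtain ⟨s, hs⟩ := CuspForm.intLattice_fg N k
  have hnoeth : IsNoetherian ℤ (CuspForm.intLattice N k) :=
    isNoetherian_of_fg_of_noetherian _ (CuspForm.intLattice_fg N k)
  let Φ : (CuspForm.heckeAlgebra N k S) →ₗ[ℤ] (s → CuspForm.intLattice N k) :=
    { toFun := fun t x => ⟨t.1 x.1, CuspForm.mem_intLattice_of_mem_heckeAlgebra hk t.2
        (hs ▸ Submodule.subset_span x.2)⟩
      map_add' := by
        intro t t'
        ext x
        simp
      map_smul' := by
        intro c t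
        ext x
        simp }
  apply Module.Finite.of_injective Φ
  rw [← LinearMap.ker_eq_bot, LinearMap.ker_eq_bot']
  intro t ht
  apply Subtype.ext
  have h1 : ∀ x ∈ s, t.1 x = 0 := by
    intro x hx
    have := congrFun ht ⟨x, hx⟩
    exact congrArg Subtype.val this
  have h2 : ∀ x ∈ CuspForm.intLattice N k, t.1 x = 0 := by
    intro x hx
    rw [← hs] at hx
    induction hx using Submodule.span_induction with
    | mem x hx => exact h1 x hx
    | zero => simp
    | add x y _ _ hx hy => rw [map_add, hx, hy, add_zero]
    | smul a x _ hx => rw [map_zsmul, hx, smul_zero]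
  apply LinearMap.ext_on (s := (CuspForm.intLattice N k : Set (CuspForm (Gamma0 N) k))) h
  intro x hx
  simpa using h2 x hx

/-- S22 from the integral structure in all weights. -/
theorem result_of_hasIntegralStructure
    (h : ∀ (N : ℕ) [NeZero N] (k : ℤ), CuspForm.HasIntegralStructure N k)
    (N : ℕ) [NeZero N] (k : ℤ) (S : Set ℕ) :
    Module.Finite ℤ (CuspForm.heckeAlgebra N k S) := by
  rcases le_or_gt k 1 with hk | hk
  · exact result_of_weight_le_one N hk S
  · exact finite_of_hasIntegralStructure N hk.le S (h N k)

end Fermat.Agent.S22
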